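import Fermat.Agent.S41.WP.Conc
import Fermat.Agent.S19.WR.Main

set_option autoImplicit false

/-!
# S33 / N67 : the formal end of the wall (N)

* `root_eq_one` : a `p`-power root of unity `≡ 1 mod p` (`p` odd) is `1`;
* `weil_eq_one_of_close` (N6) : `e([f],[g]) = 1` if `f(E_g) ≡ 1`, `g(D_f) ≡ 1 mod p`;
* `eps_of_orth` (N7) : `x ⊥ (t-1) W` implies `t x = ε(t) x`.
-/

noncomputable section

namespace Fermat.Agent.S33

open AlgebraicCurve ModularCurve
open Fermat.Agent.S24 (Kb FN IsFF1 isFF1_FN)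
open Fermat.Agent.S19 (evD IsDiv WRStatement)
open Fermat.Agent.S19.Pair
open Fermat.Agent.GES
open Fermat.Agent.S41.WP

/-- `u ≡ 1 mod p A`. -/
def Close (A : ValuationSubring Kb) (p : ℕ) (u : Kb) : Prop := ∃ a ∈ A, u - 1 = (p : Kb) * a

theorem Close.one (A : ValuationSubring Kb) (p : ℕ) : Close A p 1 := ⟨0, A.zero_mem, by simp⟩

theorem Close.mem {A : ValuationSubring Kb} {p : ℕ} {u : Kb} (h : Close A p u) : u ∈ A := by
  obtain ⟨a, ha, h⟩ := h
  have : u = 1 + (p : Kb) * a := by linear_combination h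
  rw [this]
  exact A.add_mem _ _ A.one_mem (A.mul_mem _ _ (natCast_mem A p) ha)

theorem Close.mul {A : ValuationSubring Kb} {p : ℕ} {u w : Kb} (hu : Close A p u)
    (hw : Close A p w) : Close A p (u * w) := by
  obtain ⟨a, ha, h1⟩ := hu
  obtain ⟨b, hb, h2⟩ := hw
  refine ⟨a + b + (p : Kb) * a * b, A.add_mem _ _ (A.add_mem _ _ ha hb)
    (A.mul_mem _ _ (A.mul_mem _ _ (natCast_mem A p) ha) hb), ?_⟩
  have e1 : u = 1 + (p : Kb) * a := by linear_combination h1
  have e2 : w = 1 + (p : Kb) * b := by linear_combination h2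
  rw [e1, e2]; ring

theorem Close.pow {A : ValuationSubring Kb} {p : ℕ} {u : Kb} (hu : Close A p u) (k : ℕ) :
    Close A p (u ^ k) := by
  induction k with
  | zero => simpa using Close.one A p
  | succ k ih => rw [pow_succ]; exact ih.mul hu

theorem Close.inv {A : ValuationSubring Kb} {p : ℕ} (hA : A.LiesOverPrime p) {u : Kb}
    (hu : Close A p u) : Close A p u⁻¹ := by
  obtain ⟨a, ha, h1⟩ := hu
  have hp : A.valuation (p : Kb) < 1 := (ValuationSubring.mem_nonunits_iff A).1 hA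
  have hav : A.valuation a ≤ 1 := (A.valuation_le_one_iff a).2 ha
  have hpa : A.valuation ((p : Kb) * a) < 1 := by
    rw [map_mul]
    exact mul_lt_one_of_lt_of_le hp hav
  have e1 : u = 1 + (p : Kb) * a := by linear_combination h1
  have hu1 : A.valuation u = 1 := by rw [e1]; exact Valuation.map_one_add_of_lt _ hpa
  have hu0 : u ≠ 0 := by
    intro h0; rw [h0, map_zero] at hu1; exact zero_ne_one hu1
  have hui : u⁻¹ ∈ A := by
    rw [← A.valuation_le_one_iff, map_inv₀, hu1, inv_one]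
  refine ⟨-(a * u⁻¹), A.neg_mem _ (A.mul_mem _ _ ha hui), ?_⟩
  field_simp
  linear_combination -h1

theorem Close.div {A : ValuationSubring Kb} {p : ℕ} (hA : A.LiesOverPrime p) {u w : Kb}
    (hu : Close A p u) (hw : Close A p w) : Close A p (u / w) := by
  rw [div_eq_mul_inv]; exact hu.mul (hw.inv hA)

/-- a root of unity of order `p` is not `≡ 1 mod p` (`p` odd). -/
theorem not_close_of_primitive {A : ValuationSubring Kb} {p : ℕ} (hp : p.Prime) (hp2 : p ≠ 2)
    (hA : A.LiesOverPrime p) {ζ : Kb} (hζ : IsPrimitiveRoot ζ p) : ¬ Close A p ζ := by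
  intro hc
  obtain ⟨k, rfl⟩ : ∃ k, p = k + 1 := ⟨p - 1, by have := hp.pos; omega⟩
  have hk2 : 2 ≤ k := by
    have := hp.two_le
    omega
  have hprod := hζ.prod_one_sub_pow_eq_order
  set P : Kb := ((k + 1 : ℕ) : Kb) with hP
  have hP0 : P ≠ 0 := by rw [hP]; exact_mod_cast (Nat.succ_ne_zero k)
  -- each factor is in `P A`
  have hfac : ∀ i : ℕ, ∃ b ∈ A, 1 - ζ ^ (i + 1) = P * b := by
    intro i
    obtain ⟨b, hb, h⟩ := hc.pow (i + 1)
    exact ⟨-b, A.neg_mem _ hb, by linear_combination -h⟩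
  choose b hb hbe using hfac
  have h2 : ∏ i ∈ Finset.range k, (1 - ζ ^ (i + 1)) = P ^ k * ∏ i ∈ Finset.range k, b i := by
    rw [Finset.prod_congr rfl (fun i _ => hbe i), Finset.prod_mul_distrib, Finset.prod_const,
      Finset.card_range]
  have hB : ∏ i ∈ Finset.range k, b i ∈ A := Subring.prod_mem A.toSubring (fun i _ => hb i)
  rw [h2] at hprod
  have hPe : ((k : Kb) + 1) = P := by rw [hP]; push_cast; ring
  rw [hPe] at hprod
  obtain ⟨j, rfl⟩ : ∃ j, k = j + 2 := ⟨k - 2, by omega⟩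
  -- `1 = P^(j+1) * B`
  have h3 : P * (P ^ j * ∏ i ∈ Finset.range (j + 2), b i) = 1 := by
    have : P * (P * (P ^ j * ∏ i ∈ Finset.range (j + 2), b i)) = P * 1 := by
      rw [mul_one]; nth_rewrite 4 [← hprod]; ring
    exact mul_left_cancel₀ hP0 this
  have hv : A.valuation P < 1 := (ValuationSubring.mem_nonunits_iff A).1 hA
  have hv2 : A.valuation (P ^ j * ∏ i ∈ Finset.range (j + 2), b i) ≤ 1 :=
    (A.valuation_le_one_iff _).2 (A.mul_mem _ _ (A.pow_mem (natCast_mem A _) j) hB)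
  have := congrArg A.valuation h3
  rw [map_mul, map_one] at this
  exact absurd this (ne_of_lt (mul_lt_one_of_lt_of_le hv hv2))

theorem root_eq_one {A : ValuationSubring Kb} {p : ℕ} (hp : p.Prime) (hp2 : p ≠ 2)
    (hA : A.LiesOverPrime p) {n : ℕ} {ζ : Kb} (hζ : ζ ^ p ^ n = 1) (hc : Close A p ζ) : ζ = 1 := by
  induction n generalizing ζ with
  | zero => simpa using hζ
  | succ n ih =>
    -- `ζ^p` has order dividing `p^n`
    have h1 : (ζ ^ p) ^ p ^ n = 1 := by rw [← pow_mul, ← pow_succ']; exact hζ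
    have h2 : ζ ^ p = 1 := ih h1 (hc.pow p)
    by_contra hne
    have : Fact p.Prime := ⟨hp⟩
    have ho : orderOf ζ = p := orderOf_eq_prime h2 hne
    exact not_close_of_primitive hp hp2 hA (ho ▸ IsPrimitiveRoot.orderOf ζ) hc

/-- **(N6)** -/
theorem weil_eq_one_of_close (N : ℕ) [NeZero N] {A : ValuationSubring Kb} {p : ℕ} (hp : p.Prime)
    (hp2 : p ≠ 2) (hA : A.LiesOverPrime p) (n : ℕ) [NeZero (p ^ n)] (f g : DN N (p ^ n))
    (hd : Disj (K := Kb) (cf f) (cf g))
    (h1 : Close A p (evD (isFF1_FN N) (dv (isFF1_FN N) (p ^ n) (cf g)) (cf f)))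
    (h2 : Close A p (evD (isFF1_FN N) (dv (isFF1_FN N) (p ^ n) (cf f)) (cf g))) :
    weil (isFF1_FN N) (p ^ n) (Vm.mk f) (Vm.mk g) = 1 := by
  have hpow := weil_pow (isFF1_FN N) S19.wr (Vm.mk f) (Vm.mk g)
  refine root_eq_one hp hp2 hA hpow ?_
  rw [weil_mk _ S19.wr f g hd]
  exact h1.div hA h2

/-- **(N7)** `x ⊥ (t - 1) W` implies `t x = ε(t) x`. -/
theorem eps_of_orth (N : ℕ) [NeZero N] {m : ℕ} [NeZero m] (x : VN N m) (t : GQ) (a : ℕ)
    (ha : ∀ ζ : Kb, ζ ^ m = 1 → t ζ = ζ ^ a)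
    (horth : ∀ y : VN N m, weil (isFF1_FN N) m x (rhoV N m t y - y) = 1) :
    rhoV N m t x = a • x := by
  have hWR := S19.wr
  rw [← sub_eq_zero]
  refine weil_nd N hWR _ (fun z => ?_)
  -- `z = t y`
  obtain ⟨y, rfl⟩ : ∃ y, rhoV N m t y = z := ⟨rhoV N m t⁻¹ z, rhoV_inv_apply N t z⟩
  have e1 : weil (isFF1_FN N) m (rhoV N m t x) (rhoV N m t y)
      = weil (isFF1_FN N) m x y ^ a := by
    rw [weil_rhoV N hWR, ha _ (weil_pow _ hWR x y)]
  have e2 : weil (isFF1_FN N) m x (rhoV N m t y) = weil (isFF1_FN N) m x y := by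
    have h := weil_add_right (isFF1_FN N) hWR x (rhoV N m t y - y) y
    rw [sub_add_cancel, horth y, one_mul] at h
    exact h
  have e3 : weil (isFF1_FN N) m (a • x) (rhoV N m t y) = weil (isFF1_FN N) m x y ^ a := by
    rw [weil_nsmul_left _ hWR, e2]
  have h4 := weil_add_left (isFF1_FN N) hWR (rhoV N m t x - a • x) (a • x) (rhoV N m t y)
  rw [sub_add_cancel, e1, e3] at h4
  have hne : weil (isFF1_FN N) m x y ^ a ≠ 0 := pow_ne_zero _ (weil_ne_zero _ _ _)
  exact (mul_right_cancel₀ hne (by rw [one_mul]; exact h4)).symm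

end Fermat.Agent.S33
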