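import Fermat.Agent.S33.UT
import Fermat.Agent.S37.Frob
import Fermat.Prelude.Def_GaloisRep_LocalConditions

set_option autoImplicit false

/-!
# S33 / Abs : the abstract top (T3)
-/

namespace Fermat.Agent.S33

open IsLocalRing TensorProduct
open Fermat.Agent.GES (GQ)

variable {T : Type} [CommRing T] [IsLocalRing T] [IsNoetherianRing T]

theorem ordinary_abs (ρ : GaloisRepAdic T) (P : ValuationSubring (AlgebraicClosure ℚ))
    (hU : ∀ j : ℕ, ∃ u : GQ →₀ ℤ, IsAug (P.inertiaSubgroupIn ℚ) u ∧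
      ∀ s ∈ P.inertiaSubgroupIn ℚ, ∀ v : ρ.V,
        (u.sum fun g c => c • ρ.ρ g (ρ.ρ s v - v)) - (ρ.ρ s v - v) ∈
          (maximalIdeal T ^ j) • (⊤ : Submodule T ρ.V))
    (hE : ∃ s ∈ P.inertiaSubgroupIn ℚ, ∃ v : ρ.V,
      ρ.ρ s v - v ∉ (maximalIdeal T) • (⊤ : Submodule T ρ.V))
    (hres : ∃ L : Submodule (ResidueField T) (GaloisRepAdic.ofResidualGaloisRep ρ.residual).V,
      (∃ b : Module.Basis (Fin 2) (ResidueField T)
        (GaloisRepAdic.ofResidualGaloisRep ρ.residual).V, L = (ResidueField T) ∙ b 0) ∧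
      (∀ σ ∈ P.decompositionSubgroup ℚ, ∀ v ∈ L,
        (GaloisRepAdic.ofResidualGaloisRep ρ.residual).ρ σ v ∈ L) ∧
      (∀ σ ∈ P.inertiaSubgroupIn ℚ, ∀ v : (GaloisRepAdic.ofResidualGaloisRep ρ.residual).V,
        (GaloisRepAdic.ofResidualGaloisRep ρ.residual).ρ σ v - v ∈ L)) :
    ∃ L : Submodule T ρ.V, (∃ b : Module.Basis (Fin 2) T ρ.V, L = T ∙ b 0) ∧
      (∀ σ ∈ P.decompositionSubgroup ℚ, ∀ v ∈ L, ρ.ρ σ v ∈ L) ∧
      (∀ σ ∈ P.inertiaSubgroupIn ℚ, ∀ v : ρ.V, ρ.ρ σ v - v ∈ L) := by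
  classical
  obtain ⟨Lb0, ⟨bb0, hLb0⟩, -, hLI0⟩ := hres
  obtain ⟨Lb, bb, hLb, hLI⟩ : ∃ (Lb : Submodule (ResidueField T) (ResidueField T ⊗[T] ρ.V))
      (bb : Module.Basis (Fin 2) (ResidueField T) (ResidueField T ⊗[T] ρ.V)),
      Lb = (ResidueField T) ∙ bb 0 ∧ ∀ σ ∈ P.inertiaSubgroupIn ℚ, ∀ v : ρ.V,
        (1 : ResidueField T) ⊗ₜ[T] (ρ.ρ σ v) - (1 : ResidueField T) ⊗ₜ[T] v ∈ Lb :=
    ⟨Lb0, bb0, hLb0, fun σ hσ v => hLI0 σ hσ ((1 : ResidueField T) ⊗ₜ[T] v)⟩
  clear hLI0 hLb0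
  let κ : ρ.V →ₗ[T] (ResidueField T ⊗[T] ρ.V) := TensorProduct.mk T (ResidueField T) ρ.V 1
  have hker : LinearMap.ker κ = (maximalIdeal T) • (⊤ : Submodule T ρ.V) :=
    LinearMap.ker_tensorProductMk ρ.V
  let L' : Submodule T ρ.V :=
    Submodule.span T {y | ∃ s ∈ P.inertiaSubgroupIn ℚ, ∃ v, y = ρ.ρ s v - v}
  let Q : Submodule T ρ.V := (Lb.restrictScalars T).comap κ
  have hQ : ∀ g ∈ P.inertiaSubgroupIn ℚ, ∀ v, ρ.ρ g v - v ∈ Q := by
    intro g hg v
    have := hLI g hg v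
    show κ (ρ.ρ g v - v) ∈ Lb
    rw [map_sub]
    exact this
  have hmQ : (maximalIdeal T) • (⊤ : Submodule T ρ.V) ≤ Q := by
    rw [← hker]
    intro x hx
    show κ x ∈ Lb
    rw [LinearMap.mem_ker.1 hx]
    exact Lb.zero_mem
  -- `(g - 1)` maps `𝔪^j V` into `𝔪^j Q`
  have hQj : ∀ (j : ℕ), ∀ g ∈ P.inertiaSubgroupIn ℚ,
      ∀ y ∈ (maximalIdeal T ^ j) • (⊤ : Submodule T ρ.V),
      ρ.ρ g y - y ∈ (maximalIdeal T ^ j) • Q := by
    intro j g hg y hy
    have h1 : (ρ.ρ g - 1 : Module.End T ρ.V) y ∈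
        ((maximalIdeal T ^ j) • (⊤ : Submodule T ρ.V)).map (ρ.ρ g - 1 : Module.End T ρ.V) :=
      Submodule.mem_map_of_mem hy
    rw [Submodule.map_smul''] at h1
    refine Submodule.smul_mono le_rfl ?_ h1
    rintro _ ⟨v, -, rfl⟩
    exact hQ g hg v
  have hsucc : ∀ j : ℕ, (maximalIdeal T ^ (j + 1)) • (⊤ : Submodule T ρ.V) ≤
      (maximalIdeal T ^ j) • Q := by
    intro j
    rw [pow_succ, Submodule.mul_smul]
    exact Submodule.smul_mono le_rfl hmQ
  -- KEY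
  have key : ∀ (j : ℕ), ∀ y ∈ L', y ∈ (maximalIdeal T ^ j) • (⊤ : Submodule T ρ.V) →
      y ∈ (maximalIdeal T ^ j) • Q := by
    intro j y hyL hyj
    obtain ⟨u, ⟨hu1, hu2⟩, hu⟩ := hU (j + 1)
    let Φ : Module.End T ρ.V := (u.sum fun g c => c • ρ.ρ g) - 1
    have hΦ : ∀ z, Φ z = (u.sum fun g c => c • ρ.ρ g z) - z := by
      intro z
      simp [Φ, Finsupp.sum, LinearMap.sum_apply]
    have h1 : L' ≤ ((maximalIdeal T ^ (j + 1)) • (⊤ : Submodule T ρ.V)).comap Φ := by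
      refine Submodule.span_le.2 ?_
      rintro _ ⟨s, hs, v, rfl⟩
      rw [SetLike.mem_coe, Submodule.mem_comap, hΦ]
      exact hu s hs v
    have h2 : Φ y ∈ (maximalIdeal T ^ j) • Q := hsucc j (h1 hyL)
    have h3 : (u.sum fun g c => c • ρ.ρ g y) = u.sum fun g c => c • (ρ.ρ g y - y) := by
      have h4 : (u.sum fun g c => c • (ρ.ρ g y - y)) =
          (u.sum fun g c => c • ρ.ρ g y) - (u.sum fun _ c => c) • y := by
        simp only [Finsupp.sum, smul_sub, Finset.sum_sub_distrib, Finset.sum_smul]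
      rw [h4, hu2, zero_smul, sub_zero]
    have h5 : (u.sum fun g c => c • ρ.ρ g y) ∈ (maximalIdeal T ^ j) • Q := by
      rw [h3]
      refine Submodule.sum_mem _ fun g hg => ?_
      exact zsmul_mem (hQj j g (hu1 g hg) y hyj) _
    have h6 : y = (u.sum fun g c => c • ρ.ρ g y) - Φ y := by rw [hΦ]; abel
    rw [h6]
    exact Submodule.sub_mem _ h5 h2
  obtain ⟨s0, hs0, v0, hv0⟩ := hE
  set vb : ρ.V := ρ.ρ s0 v0 - v0 with hvb
  have hvbL : vb ∈ L' := Submodule.subset_span ⟨s0, hs0, v0, rfl⟩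
  have hκvb0 : κ vb ≠ 0 := by
    intro h
    apply hv0
    rw [← hker]
    exact LinearMap.mem_ker.2 h
  have hκvbL : κ vb ∈ Lb := hQ s0 hs0 v0
  obtain ⟨c, hc⟩ : ∃ c : ResidueField T, c • bb 0 = κ vb := by
    rw [hLb] at hκvbL
    exact Submodule.mem_span_singleton.1 hκvbL
  have hc0 : c ≠ 0 := by
    rintro rfl
    exact hκvb0 (by rw [← hc, zero_smul])
  have hQle : Q ≤ (T ∙ vb) ⊔ (maximalIdeal T) • (⊤ : Submodule T ρ.V) := by
    intro q hq
    have hq' : κ q ∈ Lb := hq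
    rw [hLb] at hq'
    obtain ⟨c', hc'⟩ := Submodule.mem_span_singleton.1 hq'
    obtain ⟨a, ha⟩ := IsLocalRing.residue_surjective (c' / c)
    have h1 : κ (q - a • vb) = 0 := by
      have h2 : a • κ vb = (residue T a) • κ vb := (algebraMap_smul (ResidueField T) a _).symm
      rw [map_sub, map_smul, h2, ha, ← hc', ← hc, smul_smul, div_mul_cancel₀ _ hc0, sub_self]
    have h2 : q - a • vb ∈ (maximalIdeal T) • (⊤ : Submodule T ρ.V) := by
      rw [← hker]
      exact LinearMap.mem_ker.2 h1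
    have h3 : q = a • vb + (q - a • vb) := by abel
    rw [h3]
    exact Submodule.add_mem_sup (Submodule.smul_mem _ _ (Submodule.mem_span_singleton_self _)) h2
  have hind : ∀ j : ℕ, L' ≤ (T ∙ vb) ⊔ (maximalIdeal T ^ j) • (⊤ : Submodule T ρ.V) := by
    intro j
    induction j with
    | zero =>
      rw [pow_zero, Ideal.one_eq_top, Submodule.top_smul]
      exact le_top.trans le_sup_right
    | succ j ih =>
      intro y hy
      obtain ⟨y1, hy1, z, hz, rfl⟩ := Submodule.mem_sup.1 (ih hy)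
      have hy1L : y1 ∈ L' := by
        obtain ⟨a, rfl⟩ := Submodule.mem_span_singleton.1 hy1
        exact L'.smul_mem _ hvbL
      have hzL : z ∈ L' := by
        have := L'.sub_mem hy hy1L
        simpa using this
      have h1 := key j z hzL hz
      have h2 : (maximalIdeal T ^ j) • Q ≤
          (T ∙ vb) ⊔ (maximalIdeal T ^ (j + 1)) • (⊤ : Submodule T ρ.V) := by
        refine (Submodule.smul_mono le_rfl hQle).trans ?_
        rw [Submodule.smul_sup, pow_succ, Submodule.mul_smul]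
        exact sup_le_sup_right Submodule.smul_le_right _
      exact Submodule.add_mem _ ((le_sup_left : (T ∙ vb) ≤ _) hy1) (h2 h1)
  have hL'le : L' ≤ T ∙ vb := by
    intro y hy
    have h1 : (T ∙ vb).mkQ y ∈
        (⨅ i : ℕ, maximalIdeal T ^ i • ⊤ : Submodule T (ρ.V ⧸ (T ∙ vb))) := by
      rw [Submodule.mem_iInf]
      intro j
      obtain ⟨y1, hy1, z, hz, rfl⟩ := Submodule.mem_sup.1 (hind j hy)
      have h2 : (T ∙ vb).mkQ y1 = 0 := (Submodule.Quotient.mk_eq_zero _).2 hy1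
      rw [map_add, h2, zero_add]
      have h3 : (T ∙ vb).mkQ z ∈
          ((maximalIdeal T ^ j) • (⊤ : Submodule T ρ.V)).map (T ∙ vb).mkQ :=
        Submodule.mem_map_of_mem hz
      rw [Submodule.map_smul''] at h3
      exact Submodule.smul_mono le_rfl le_top h3
    rw [Ideal.iInf_pow_smul_eq_bot_of_isLocalRing _
      (IsLocalRing.maximalIdeal.isMaximal T).ne_top] at h1
    exact (Submodule.Quotient.mk_eq_zero _).1 ((Submodule.mem_bot T).1 h1)
  have hL' : L' = T ∙ vb :=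
    le_antisymm hL'le ((Submodule.span_singleton_le_iff_mem _ _).2 hvbL)
  obtain ⟨w1, hw1⟩ : ∃ w1 : ρ.V, κ w1 = bb 1 :=
    (TensorProduct.mk_surjective T ρ.V (ResidueField T) IsLocalRing.residue_surjective) (bb 1)
  let f : Fin 2 → ρ.V := ![vb, w1]
  have hli : LinearIndependent (ResidueField T)
      (TensorProduct.mk T (ResidueField T) ρ.V 1 ∘ f) := by
    have h1 := bb.linearIndependent.units_smul ![Units.mk0 c hc0, 1]
    convert h1 using 1
    funext i
    fin_cases i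
    · exact hc.symm
    · show κ w1 = _
      rw [hw1]
      simp
  have hliT : LinearIndependent T f := Module.IsLocalRing.linearIndependent_of_flat f hli
  have hcard : Fintype.card (Fin 2) =
      Module.finrank (ResidueField T) (ResidueField T ⊗[T] ρ.V) := by
    rw [Module.finrank_baseChange, ρ.finrank_eq]
    rfl
  let bk := basisOfLinearIndependentOfCardEqFinrank hli hcard
  have hsp : Submodule.span T (Set.range f) = ⊤ :=
    IsLocalRing.span_eq_top_of_tmul_eq_basis f bk (fun i => by simp [bk])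
  let b : Module.Basis (Fin 2) T ρ.V := Module.Basis.mk hliT hsp.ge
  refine ⟨L', ⟨b, ?_⟩, ?_, ?_⟩
  · rw [hL']
    simp [b, f]
  · intro σ hσ v hv
    have h1 : L' ≤ L'.comap (ρ.ρ σ) := by
      refine Submodule.span_le.2 ?_
      rintro _ ⟨s, hs, v, rfl⟩
      rw [SetLike.mem_coe, Submodule.mem_comap]
      refine Submodule.subset_span
        ⟨σ * s * σ⁻¹, Fermat.Agent.S37.conj_mem_inertia P hσ hs, ρ.ρ σ v, ?_⟩
      have h2 : ρ.ρ (σ * s * σ⁻¹) (ρ.ρ σ v) = ρ.ρ σ (ρ.ρ s v) := by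
        rw [← Module.End.mul_apply, ← map_mul, inv_mul_cancel_right, map_mul,
          Module.End.mul_apply]
      rw [h2, map_sub]
    exact h1 hv
  · intro σ hσ v
    exact Submodule.subset_span ⟨σ, hσ, v, rfl⟩

end Fermat.Agent.S33
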