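import Fermat.Agent.S33.NT
import Fermat.Agent.S41.WP.Conc
import Fermat.Agent.NEW.Defs
import Fermat.Agent.GES.System

/-!
# S33 sprint: (N7) and the assembly (A)

* `eps_of_orth` (N7): if `x` is orthogonal (Weil pairing) to all `(t⁻¹ - 1) y`, then `t x = a x`,
  where `t` acts on `μ_m` by `μ ↦ μ ^ a`.
* `nt_aug_of` (A): `(N) + (O) + (Br) + (B) ⇒ NT (I.W_n)` at level `M * p`.
-/

set_option autoImplicit false

noncomputable section

namespace Fermat.Agent.S33.Asm

open AlgebraicCurve ModularCurve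
open Fermat.Agent.S24 (Kb FN IsFF1 isFF1_FN)
open Fermat.Agent.S19 (WRStatement)
open Fermat.Agent.S19.Pair
open Fermat.Agent.GES
open Fermat.Agent.NEW
open Fermat.Agent.S41.WP

section N7

variable (N : ℕ) [NeZero N] {m : ℕ} [NeZero m]

theorem weil_neg_right (hWR : WRStatement) (a b : VN N m) :
    weil (isFF1_FN N) m a (-b) * weil (isFF1_FN N) m a b = 1 := by
  rw [← weil_add_right _ hWR, neg_add_cancel, weil_zero_right _ hWR]

theorem weil_neg_left (hWR : WRStatement) (a b : VN N m) :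
    weil (isFF1_FN N) m (-a) b * weil (isFF1_FN N) m a b = 1 := by
  rw [← weil_add_left _ hWR, neg_add_cancel, weil_zero_left _ hWR]

/-- **(N7)**. -/
theorem eps_of_orth (hWR : WRStatement) (x : VN N m) (t : GQ) (a : ℕ)
    (ha : ∀ μ : Kb, μ ^ m = 1 → t μ = μ ^ a)
    (h : ∀ y : VN N m, weil (isFF1_FN N) m x (rhoV N m t⁻¹ y - y) = 1) :
    rhoV N m t x = a • x := by
  have key : rhoV N m t x - a • x = 0 := by
    apply weil_nd N hWR
    intro y
    have h1 : weil (isFF1_FN N) m (rhoV N m t x) y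
        = weil (isFF1_FN N) m x (rhoV N m t⁻¹ y) ^ a := by
      rw [← ha _ (weil_pow _ hWR _ _), ← weil_rhoV N hWR, rhoV_inv_apply]
    have h2 : weil (isFF1_FN N) m x (rhoV N m t⁻¹ y) = weil (isFF1_FN N) m x y := by
      have h3 := h y
      rw [sub_eq_add_neg, weil_add_right _ hWR] at h3
      have h4 := weil_neg_right N hWR x y
      have hne : weil (isFF1_FN N) m x (-y) ≠ 0 := weil_ne_zero _ _ _
      have : weil (isFF1_FN N) m x (-y) * weil (isFF1_FN N) m x (rhoV N m t⁻¹ y)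
          = weil (isFF1_FN N) m x (-y) * weil (isFF1_FN N) m x y := by
        rw [h4, mul_comm, h3]
      exact mul_left_cancel₀ hne this
    rw [sub_eq_add_neg, weil_add_left _ hWR, h1, h2, ← weil_nsmul_left _ hWR, mul_comm]
    exact weil_neg_left N hWR _ _
  exact sub_eq_zero.1 key

/-- **(N7)**, second form: orthogonality to all `(t - 1) y`. -/
theorem eps_of_orth' (hWR : WRStatement) (x : VN N m) (t : GQ) (a : ℕ)
    (ha : ∀ μ : Kb, μ ^ m = 1 → t μ = μ ^ a)
    (h : ∀ y : VN N m, weil (isFF1_FN N) m x (rhoV N m t y - y) = 1) :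
    rhoV N m t x = a • x := by
  apply eps_of_orth N hWR x t a ha
  intro y
  have h1 := h (rhoV N m t⁻¹ y)
  rw [rhoV_inv_apply] at h1
  have h2 := weil_neg_right N hWR x (y - rhoV N m t⁻¹ y)
  rw [h1, mul_one, neg_sub] at h2
  exact h2

end N7

section Asm

variable (M p : ℕ) [NeZero M] [NeZero p] (m : ℕ) [NeZero m]

/-- **(A)**: the assembly. `Br` is any subgroup containing `I.W`; `hN` is the conclusion of the
wall (N) for ONE element `s0` of `I`. -/
theorem nt_aug_of (I : Subgroup GQ) (Br : AddSubgroup (VN (M * p) m))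
    (hBr : aug (actV (M * p) m) I ≤ Br)
    (hO : NT (actV M m) I (aug (actV M m) I))
    {s0 : GQ} (hs0 : s0 ∈ I) (a : ℕ) (hcop : IsCoprime ((a : ℤ) - 1) (m : ℤ))
    (hN : ∀ x ∈ Br, alphaV M p m x = 0 → betaV M p m x = 0 → rhoV (M * p) m s0 x = a • x) :
    NT (actV (M * p) m) I (aug (actV (M * p) m) I) := by
  have hα : ∀ s ∈ I, ∀ x, alphaV M p m (actV (M * p) m s x) = actV M m s (alphaV M p m x) :=
    fun s _ x => alphaV_rhoV M p m s x
  have hβ : ∀ s ∈ I, ∀ x, betaV M p m (actV (M * p) m s x) = actV M m s (betaV M p m x) :=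
    fun s _ x => betaV_rhoV M p m s x
  refine NT.of_exact _ _ I (alphaV M p m) hα hO ?_ ?_
  · intro x hx
    exact map_aug_le _ _ I (alphaV M p m) hα ⟨x, hx, rfl⟩
  refine NT.of_exact _ _ I (betaV M p m) hβ hO ?_ ?_
  · intro x hx
    exact map_aug_le _ _ I (betaV M p m) hβ ⟨x, hx.1, rfl⟩
  obtain ⟨u, v, huv⟩ := hcop
  refine NT_of_scalar _ I hs0 (a : ℤ) u ?_ ?_
  · intro x hx
    rw [natCast_zsmul]
    exact hN x (hBr hx.1.1) hx.1.2 hx.2
  · intro x _
    have h0 : (m : ℤ) • x = 0 := by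
      rw [natCast_zsmul]
      exact Vm.nsmul_eq_zero (K := Kb) (F := FN (M * p)) (m := m) x
    calc (u * ((a : ℤ) - 1)) • x = (u * ((a : ℤ) - 1)) • x + v • ((m : ℤ) • x) := by
          rw [h0, smul_zero, add_zero]
      _ = (u * ((a : ℤ) - 1) + v * (m : ℤ)) • x := by rw [add_smul, mul_smul v]
      _ = x := by rw [huv, one_smul]

end Asm

end Fermat.Agent.S33.Asm
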