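import Fermat.Agent.GES.Relation
import Fermat.Agent.GES.System
import Fermat.Agent.S35.C.W

set_option autoImplicit false

/-!
# S33 / Br : the subgroup of Kummer classes which are constant on both branches

Level `M * p`, `A` a valuation ring of `ℚ̄` over `p`.

* `ConstAt A f` : `f = c · X / Y` with `c ≠ 0` a constant and `X ≡ Y ≢ 0 (mod 𝔪_A)` (`q`-expansions): `f` is a non-zero
  constant modulo `𝔪_A` for the Gauss valuation `v_∞`;
* `Br A M p m ≤ V_m(Mp)` : the classes `[f]` with `ConstAt A f` and `ConstAt A (w_p f)`  (`w_p = S35.WF M p`);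
* `Br_stable`  : `Br` is stable under the decomposition group of `A`;
* `sub_mem_Br` : `τ x - x ∈ Br` for all `x` and all `τ` in the inertia group of `A`.
-/

noncomputable section

namespace Fermat.Agent.S33

open AlgebraicCurve ModularCurve
open Fermat.Agent.S24 (Kb FN iotaK)
open Fermat.Agent.S18 (IntA SmallA)
open Fermat.Agent.GES
open Fermat.Agent.S35 (WF WF_galF)

/-- `f` is a non-zero constant modulo `𝔪_A` at the Gauss valuation of the `q`-expansion. -/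
def ConstAt (A : ValuationSubring Kb) {N : ℕ} (f : FN N) : Prop :=
  ∃ (c : Kb) (X Y : FN N), c ≠ 0 ∧ IntA A X.1 ∧ IntA A Y.1 ∧ ¬ SmallA A Y.1 ∧
    SmallA A (X.1 - Y.1) ∧ f = algebraMap Kb (FN N) c * (X / Y)

namespace ConstAt

variable {A : ValuationSubring Kb} {N : ℕ}

theorem one : ConstAt A (1 : FN N) := by
  refine ⟨1, 1, 1, one_ne_zero, IntA.one, IntA.one, ?_, ?_, by simp⟩
  · intro h
    have h0 := h 0
    have h1 : ((1 : FN N) : LaurentSeries Kb).coeff 0 = 1 := by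
      show (1 : LaurentSeries Kb).coeff 0 = 1
      simp
    rw [h1] at h0
    exact ((ValuationSubring.mem_nonunits_iff A).1 h0).ne (map_one _)
  · intro n
    rw [sub_self]
    show (0 : Kb) ∈ A.nonunits
    rw [ValuationSubring.mem_nonunits_iff, map_zero]
    exact zero_lt_one

theorem ne_zero {f : FN N} (h : ConstAt A f) : f ≠ 0 := by
  obtain ⟨c, X, Y, hc, hX, hY, hY', hXY, rfl⟩ := h
  have hY0 : Y ≠ 0 := rel_ne_zero hY'
  have hX0 : X ≠ 0 := rel_ne_zero (not_smallA_of_sub hXY hY')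
  have hc' : algebraMap Kb (FN N) c ≠ 0 := by simpa using hc
  exact mul_ne_zero hc' (div_ne_zero hX0 hY0)

theorem mul {f g : FN N} (hf : ConstAt A f) (hg : ConstAt A g) : ConstAt A (f * g) := by
  obtain ⟨c, X, Y, hc, hX, hY, hY', hXY, rfl⟩ := hf
  obtain ⟨c', X', Y', hc', hX', hY1, hY1', hXY', rfl⟩ := hg
  refine ⟨c * c', X * X', Y * Y', mul_ne_zero hc hc', IntA.mul hX hX', IntA.mul hY hY1,
    not_smallA_mul hY hY1 hY' hY1', ?_, ?_⟩
  · have : (X * X').1 - (Y * Y').1 = (X.1 - Y.1) * X'.1 + Y.1 * (X'.1 - Y'.1) := by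
      show X.1 * X'.1 - Y.1 * Y'.1 = _
      ring
    rw [this]
    exact SmallA.add (SmallA.mul_right hXY hX') (SmallA.mul_left hXY' hY)
  · rw [map_mul, ← div_mul_div_comm]
    ring

theorem inv {f : FN N} (hf : ConstAt A f) : ConstAt A f⁻¹ := by
  obtain ⟨c, X, Y, hc, hX, hY, hY', hXY, rfl⟩ := hf
  refine ⟨c⁻¹, Y, X, inv_ne_zero hc, hY, hX, not_smallA_of_sub hXY hY', ?_, ?_⟩
  · have : Y.1 - X.1 = 0 - (X.1 - Y.1) := by ring
    rw [this]
    refine SmallA.sub ?_ hXY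
    intro n
    show (0 : Kb) ∈ A.nonunits
    rw [ValuationSubring.mem_nonunits_iff, map_zero]
    exact zero_lt_one
  · rw [mul_inv, inv_div, map_inv₀]

theorem galF {f : FN N} (hf : ConstAt A f) {σ : GQ} (hσ : σ ∈ A.decompositionSubgroup ℚ) :
    ConstAt A (galF N σ f) := by
  obtain ⟨c, X, Y, hc, hX, hY, hY', hXY, rfl⟩ := hf
  refine ⟨σ c, GES.galF N σ X, GES.galF N σ Y, (map_ne_zero _).2 hc, rel_intA_galF hσ hX,
    rel_intA_galF hσ hY, rel_not_smallA_galF hσ hY', ?_, rel_galF_formula N σ c X Y⟩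
  have : (GES.galF N σ X).1 - (GES.galF N σ Y).1 = coeffMap (σ : Kb →+* Kb) (X.1 - Y.1) := by
    rw [map_sub]
    rfl
  rw [this]
  exact (smallA_coeffMap_iff hσ).2 hXY

/-- `τ g / g` is constant modulo `𝔪_A` for `τ` in the inertia group. -/
theorem inertia [NeZero N] {ℓ : ℕ} (hℓ : ℓ.Prime) (hA : A.LiesOverPrime ℓ) {τ : GQ}
    (hτ : τ ∈ A.inertiaSubgroupIn ℚ) (g : FN N) (hg : g ≠ 0) :
    ConstAt A (GES.galF N τ g / g) := by
  have hτD := mem_decomposition_of_mem_inertia A hτ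
  obtain ⟨c, a, b, hc, ha, hb, ha', hb', hf⟩ := exists_normal_form N hℓ A hA g hg
  have ha0 : a ≠ 0 := rel_ne_zero ha'
  have hb0 : b ≠ 0 := rel_ne_zero hb'
  obtain ⟨hta, hta'⟩ := cong_inertia N A τ hτ a ha
  obtain ⟨htb, htb'⟩ := cong_inertia N A τ hτ b hb
  have hτa0 : GES.galF N τ a ≠ 0 := (map_ne_zero _).2 ha0
  have hτb0 : GES.galF N τ b ≠ 0 := (map_ne_zero _).2 hb0
  have hτc : τ c ≠ 0 := (map_ne_zero _).2 hc
  refine ⟨τ c / c, GES.galF N τ a * b, a * GES.galF N τ b, div_ne_zero hτc hc, IntA.mul hta hb,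
    IntA.mul ha htb, not_smallA_mul ha htb ha' (rel_not_smallA_galF hτD hb'), ?_, ?_⟩
  · have : (GES.galF N τ a * b).1 - (a * GES.galF N τ b).1 =
        ((GES.galF N τ a).1 - a.1) * b.1 - a.1 * ((GES.galF N τ b).1 - b.1) := by
      show (GES.galF N τ a).1 * b.1 - a.1 * (GES.galF N τ b).1 = _
      ring
    rw [this]
    exact SmallA.sub (SmallA.mul_right hta' hb) (SmallA.mul_left htb' ha)
  · rw [hf, rel_galF_formula, map_div₀]
    have hc1 : algebraMap Kb (FN N) c ≠ 0 := by simpa using hc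
    have hc2 : algebraMap Kb (FN N) (τ c) ≠ 0 := by simpa using hτc
    field_simp

end ConstAt

variable (A : ValuationSubring Kb) (M p m : ℕ) [NeZero M] [NeZero p]

/-- the Kummer classes which are constant modulo `𝔪_A` on both branches. -/
def Br : AddSubgroup (VN (M * p) m) where
  carrier := {x | ∃ f : DN (M * p) m, Vm.mk f = x ∧
    ConstAt A ((f : (FN (M * p))ˣ) : FN (M * p)) ∧
    ConstAt A (WF M p ((f : (FN (M * p))ˣ) : FN (M * p)))}
  zero_mem' := ⟨1, rfl, ConstAt.one, by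
    rw [Subgroup.coe_one, Units.val_one, map_one]; exact ConstAt.one⟩
  add_mem' := by
    rintro _ _ ⟨f, rfl, hf, hf'⟩ ⟨g, rfl, hg, hg'⟩
    refine ⟨f * g, Vm.mk_mul f g, ?_, ?_⟩
    · rw [Subgroup.coe_mul, Units.val_mul]; exact hf.mul hg
    · rw [Subgroup.coe_mul, Units.val_mul, map_mul]; exact hf'.mul hg'
  neg_mem' := by
    rintro _ ⟨f, rfl, hf, hf'⟩
    refine ⟨f⁻¹, Vm.mk_inv f, ?_, ?_⟩
    · rw [Subgroup.coe_inv, Units.val_inv_eq_inv_val]; exact hf.inv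
    · rw [Subgroup.coe_inv, Units.val_inv_eq_inv_val, map_inv₀]; exact hf'.inv

variable {A M p m}

theorem mem_Br {x : VN (M * p) m} : x ∈ Br A M p m ↔ ∃ f : DN (M * p) m, Vm.mk f = x ∧
    ConstAt A ((f : (FN (M * p))ˣ) : FN (M * p)) ∧
    ConstAt A (WF M p ((f : (FN (M * p))ˣ) : FN (M * p))) := Iff.rfl

/-- `Br` is stable under the decomposition group. -/
theorem Br_stable (hc : Nat.Coprime p M) {σ : GQ} (hσ : σ ∈ A.decompositionSubgroup ℚ)
    {x : VN (M * p) m} (hx : x ∈ Br A M p m) : actV (M * p) m σ x ∈ Br A M p m := by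
  obtain ⟨f, rfl, hf, hf'⟩ := hx
  rw [actV_apply, rhoV_mk]
  refine ⟨_, rfl, hf.galF hσ, ?_⟩
  show ConstAt A (WF M p (galF (M * p) σ ((f : (FN (M * p))ˣ) : FN (M * p))))
  rw [WF_galF M p hc]
  exact hf'.galF hσ

/-- `(τ - 1) V ⊆ Br` for `τ` in the inertia group. -/
theorem sub_mem_Br (hc : Nat.Coprime p M) {ℓ : ℕ} (hℓ : ℓ.Prime) (hA : A.LiesOverPrime ℓ) {τ : GQ}
    (hτ : τ ∈ A.inertiaSubgroupIn ℚ) (x : VN (M * p) m) :
    actV (M * p) m τ x - x ∈ Br A M p m := by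
  obtain ⟨f, rfl⟩ := Vm.mk_surjective x
  rw [actV_apply, rhoV_mk, ← Vm.mk_div]
  refine ⟨_, rfl, ?_, ?_⟩
  · rw [Subgroup.coe_div, Units.val_div_eq_div_val]
    exact ConstAt.inertia hℓ hA hτ _ (f : (FN (M * p))ˣ).ne_zero
  · rw [Subgroup.coe_div, Units.val_div_eq_div_val, map_div₀]
    show ConstAt A (WF M p (galF (M * p) τ ((f : (FN (M * p))ˣ) : FN (M * p))) / _)
    rw [WF_galF M p hc]
    exact ConstAt.inertia hℓ hA hτ _ ((map_ne_zero _).2 (f : (FN (M * p))ˣ).ne_zero)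

end Fermat.Agent.S33
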