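import Fermat.Agent.S33.UT

set_option autoImplicit false

/-!
# S33 / Calc : the element `(u - 1)(s - 1)`, transfer, scalars
-/

namespace Fermat.Agent.S33

variable {G X X' : Type} [Group G] [AddCommGroup X] [AddCommGroup X']

/-- the element `(u - 1)(s - 1)` of `ℤ[G]`. -/
noncomputable def twist (u : G →₀ ℤ) (s : G) : G →₀ ℤ :=
  u.mapDomain (· * s) - u - Finsupp.single s 1 + Finsupp.single 1 1

theorem sum_twist (φ : G → X →+ X) (hmul : ∀ g h x, φ (g * h) x = φ g (φ h x))
    (hone : ∀ x, φ 1 x = x) (u : G →₀ ℤ) (s : G) (x : X) :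
    ((twist u s).sum fun g c => c • φ g x) =
      (u.sum fun g c => c • φ g (φ s x - x)) - (φ s x - x) := by
  have h0 : ∀ g : G, (0 : ℤ) • φ g x = 0 := fun g => zero_smul _ _
  have ha : ∀ (g : G) (c d : ℤ), (c + d) • φ g x = c • φ g x + d • φ g x :=
    fun g c d => add_smul _ _ _
  have hs : ∀ (g : G) (c d : ℤ), (c - d) • φ g x = c • φ g x - d • φ g x :=
    fun g c d => sub_smul _ _ _
  unfold twist
  rw [Finsupp.sum_add_index' h0 ha, Finsupp.sum_sub_index hs, Finsupp.sum_sub_index hs,
    Finsupp.sum_mapDomain_index h0 ha, Finsupp.sum_single_index (h0 _),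
    Finsupp.sum_single_index (h0 _), one_smul, one_smul, hone]
  have h1 : (u.sum fun g c => c • φ g (φ s x - x)) =
      (u.sum fun g c => c • φ (g * s) x) - (u.sum fun g c => c • φ g x) := by
    simp only [Finsupp.sum, map_sub, smul_sub, Finset.sum_sub_distrib, hmul]
  rw [h1]
  abel

theorem sum_twist_act (act : G →* AddMonoid.End X) (u : G →₀ ℤ) (s : G) (x : X) :
    ((twist u s).sum fun g c => c • act g x) =
      (u.sum fun g c => c • act g (act s x - x)) - (act s x - x) :=
  sum_twist (fun g => (act g : X →+ X)) (fun g h x => by rw [map_mul]; rfl)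
    (fun x => by rw [map_one]; rfl) u s x

theorem UT.mono {I : Subgroup G} {act : G →* AddMonoid.End X} {K K' : AddSubgroup X}
    (h : K' ≤ K) (hK : UT I act K) : UT I act K' := by
  obtain ⟨u, hu, h1⟩ := hK
  exact ⟨u, hu, fun x hx => h1 x (h hx)⟩

theorem sub_mem_aug {I : Subgroup G} (act : G →* AddMonoid.End X) {s : G} (hs : s ∈ I) (x : X) :
    act s x - x ∈ aug I act :=
  AddSubgroup.subset_closure ⟨s, hs, x, rfl⟩

theorem stab_aug (I : Subgroup G) (act : G →* AddMonoid.End X) : Stab I act (aug I act) := by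
  intro s hs x hx
  have h : act s x = (act s x - x) + x := by abel
  rw [h]
  exact (aug I act).add_mem (sub_mem_aug act hs x) hx

/-- the annihilator form of `UT (aug)`. -/
theorem UT.twist_kills {I : Subgroup G} {act : G →* AddMonoid.End X} {u : G →₀ ℤ}
    (h : ∀ x ∈ aug I act, (u.sum fun g c => c • act g x) = x) {s : G} (hs : s ∈ I) (x : X) :
    ((twist u s).sum fun g c => c • act g x) = 0 := by
  rw [sum_twist_act, h _ (sub_mem_aug act hs x), sub_self]

/-- **T2**: transfer through annihilators. -/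
theorem UT.transfer {I : Subgroup G} {act : G →* AddMonoid.End X} {act' : G →* AddMonoid.End X'}
    (hann : ∀ a : G →₀ ℤ, (∀ w : X, (a.sum fun g c => c • act g w) = 0) →
      ∀ x : X', (a.sum fun g c => c • act' g x) = 0)
    (h : UT I act (aug I act)) : UT I act' (aug I act') := by
  obtain ⟨u, hu, h1⟩ := h
  refine ⟨u, hu, fun x hx => ?_⟩
  induction hx using AddSubgroup.closure_induction with
  | mem y hy =>
    obtain ⟨s, hs, x, rfl⟩ := hy
    have h2 := hann (twist u s) (fun w => UT.twist_kills h1 hs w) x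
    have h3 := sum_twist_act act' u s x
    rw [h2] at h3
    exact (sub_eq_zero.1 h3.symm)
  | zero => simp
  | add x y _ _ hx hy =>
    simp only [map_add, smul_add, Finsupp.sum_add]
    rw [hx, hy]
  | neg x _ hx =>
    simp only [map_neg, smul_neg, Finsupp.sum_neg]
    rw [hx]

/-- scalars. -/
theorem UT.of_scalar {I : Subgroup G} {act : G →* AddMonoid.End X} {K : AddSubgroup X}
    (m : ℕ) (hm : ∀ x ∈ K, m • x = 0) {s0 : G} (hs0 : s0 ∈ I) (e0 c : ℤ)
    (hc : (m : ℤ) ∣ c * (e0 - 1) - 1) (h : ∀ x ∈ K, act s0 x = e0 • x) : UT I act K := by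
  classical
  refine ⟨Finsupp.single s0 c - Finsupp.single 1 c, ⟨?_, ?_⟩, fun x hx => ?_⟩
  · intro g hg
    have := Finsupp.support_sub hg
    rcases Finset.mem_union.1 this with h1 | h1
    · have := Finsupp.support_single_subset h1
      rw [Finset.mem_singleton.1 this]; exact hs0
    · have := Finsupp.support_single_subset h1
      rw [Finset.mem_singleton.1 this]; exact I.one_mem
  · rw [Finsupp.sum_sub_index (fun _ _ _ => rfl), Finsupp.sum_single_index rfl,
      Finsupp.sum_single_index rfl, sub_self]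
  · rw [Finsupp.sum_sub_index (fun _ _ _ => sub_smul _ _ _),
      Finsupp.sum_single_index (h := fun g c => c • act g x) (zero_smul _ _),
      Finsupp.sum_single_index (h := fun g c => c • act g x) (zero_smul _ _),
      h x hx, map_one]
    obtain ⟨d, hd⟩ := hc
    have h1 : c • e0 • x - c • (1 : AddMonoid.End X) x = (c * (e0 - 1)) • x := by
      rw [mul_sub, sub_smul, mul_smul, mul_one]; rfl
    have h2 : c * (e0 - 1) = 1 + (m : ℤ) * d := by linarith
    rw [h1, h2, add_smul, one_smul, mul_comm, mul_smul, natCast_zsmul, hm x hx, smul_zero,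
      add_zero]

end Fermat.Agent.S33
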