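import Fermat.Agent.S31.Bridge
import Fermat.Agent.S31.RootsOfUnity
import Fermat.Agent.S29.FDMain
import Fermat.Agent.S13.Global
import Fermat.Prelude.Def_CuspForm_HeckeGaloisRepDatum

set_option autoImplicit false

/-!
# S33 / Det : `det ρ` is the cyclotomic character; it is non trivial modulo `p` on inertia at `p`
-/

namespace Fermat.Agent.S33

open IsLocalRing Fermat.Agent.S31

/-- **(D2)** the inertia group at `p` acts non trivially on `μ_p` (`p` odd): Minkowski. -/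
theorem exists_inertia_ne {p : ℕ} (hp : p.Prime) (hp2 : p ≠ 2) (P : ValuationSubring Qb)
    (hP : P.LiesOverPrime p) (ζ : Qb) (hζ : IsPrimitiveRoot ζ p) :
    ∃ s ∈ P.inertiaSubgroupIn ℚ, s ζ ≠ ζ := by
  by_contra hcon
  push Not at hcon
  have hζint : IsIntegral ℚ ζ := (AlgebraicClosure.isAlgebraic ℚ).isIntegral.isIntegral ζ
  let L : IntermediateField ℚ Qb := IntermediateField.adjoin ℚ {ζ}
  have hLfd : FiniteDimensional ℚ L := IntermediateField.adjoin.finiteDimensional hζint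
  -- the stabiliser of `ζ`
  let H : Subgroup GQ :=
    { carrier := {σ | σ ζ = ζ}
      one_mem' := rfl
      mul_mem' := by
        intro a b ha hb
        show a (b ζ) = ζ
        rw [show b ζ = ζ from hb]
        exact ha
      inv_mem' := by
        intro a ha
        show a⁻¹ ζ = ζ
        have h1 : a⁻¹ (a ζ) = ζ := a.symm_apply_apply ζ
        rwa [show a ζ = ζ from ha] at h1 }
  have hpow : ∀ σ : GQ, ∃ k : ℕ, σ ζ = ζ ^ k := by
    intro σ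
    have : NeZero p := ⟨hp.ne_zero⟩
    have h1 : (σ ζ) ^ p = 1 := by rw [← map_pow, hζ.pow_eq_one, map_one]
    obtain ⟨k, -, hk⟩ := hζ.eq_pow_of_pow_eq_one h1
    exact ⟨k, hk.symm⟩
  have hHn : H.Normal := by
    refine ⟨fun a ha g => ?_⟩
    show (g * a * g⁻¹) ζ = ζ
    obtain ⟨k, hk⟩ := hpow g⁻¹
    have h1 : (g * a * g⁻¹) ζ = g (a (g⁻¹ ζ)) := rfl
    rw [h1, hk, map_pow, show a ζ = ζ from ha, ← hk]
    exact g.apply_symm_apply ζ
  have hLH : L.fixingSubgroup ≤ H := by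
    intro σ hσ
    rw [IntermediateField.mem_fixingSubgroup_iff] at hσ
    exact hσ ζ (IntermediateField.mem_adjoin_simple_self ℚ ζ)
  have htop : H = ⊤ := by
    refine S13.eq_top_of_inertia_le H hHn L hLfd hLH fun q hq => ?_
    by_cases hqp : q = p
    · subst hqp
      exact ⟨P, hP, fun s hs => hcon s hs⟩
    · obtain ⟨A, hA⟩ := S54.exists_liesOverPrime hq
      refine ⟨A, hA, fun s hs => ?_⟩
      have hnd : ¬ q ∣ p := fun hd => hqp ((Nat.prime_dvd_prime_iff_eq hq hp).mp hd)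
      exact inertia_apply_root hq hA hs hnd hζ.pow_eq_one
  -- so `ζ` is rational
  have hfix : ∀ σ : GQ, σ ζ = ζ := fun σ => by
    have : σ ∈ H := htop ▸ Subgroup.mem_top σ
    exact this
  have hgal : IsGalois ℚ Qb := S54.isGalois_Lb
  obtain ⟨r, hr⟩ := (InfiniteGalois.mem_range_algebraMap_iff_fixed (k := ℚ) (K := Qb) ζ).mpr hfix
  have hr1 : r ^ p = 1 := by
    apply (algebraMap ℚ Qb).injective
    rw [map_pow, hr, hζ.pow_eq_one, map_one]
  have hodd : Odd p := hp.odd_of_ne_two hp2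
  have hr2 : r = 1 := hodd.strictMono_pow.injective (by simpa using hr1)
  apply hζ.ne_one hp.one_lt
  rw [← hr, hr2, map_one]

theorem det_sub_one_mem {T : Type*} [CommRing T] (I : Ideal T) (X : Matrix (Fin 2) (Fin 2) T)
    (hX : ∀ i j, (X - 1) i j ∈ I) : X.det - 1 ∈ I := by
  have h00 := hX 0 0
  have h01 := hX 0 1
  have h11 := hX 1 1
  simp only [Matrix.sub_apply, Matrix.one_apply_eq, Matrix.one_apply_ne (show (0 : Fin 2) ≠ 1 by decide),
    sub_zero] at h00 h01 h11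
  rw [Matrix.det_fin_two]
  have : X 0 0 * X 1 1 - X 0 1 * X 1 0 - 1 =
      (X 0 0 - 1) * X 1 1 + (X 1 1 - 1) - X 0 1 * X 1 0 := by ring
  rw [this]
  exact I.sub_mem (I.add_mem (I.mul_mem_right _ h00) h11) (I.mul_mem_right _ h01)

/-- **(D1)**, matrix form. -/
theorem det_cyclo_matrix {T : Type} [CommRing T] [IsLocalRing T] (p : ℕ) (hp : p.Prime)
    (hpT : (p : T) ∈ maximalIdeal T) (S : Finset ℕ) (hpS : p ∈ S)
    (M : GQ →* Matrix (Fin 2) (Fin 2) T)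
    (hcont : ∀ n : ℕ, ∃ L : IntermediateField ℚ Qb, FiniteDimensional ℚ L ∧
      ∀ σ : GQ, (∀ x ∈ L, σ x = x) → ∀ i j, (M σ - 1) i j ∈ maximalIdeal T ^ n)
    (hdet : ∀ ℓ : ℕ, ℓ.Prime → ℓ ∉ S → ∀ A : ValuationSubring Qb, A.LiesOverPrime ℓ →
      ∀ σ : GQ, A.IsFrobeniusAt σ ℓ → (M σ).det = (ℓ : T))
    (n : ℕ) (σ : GQ) (a : ℕ) (ha : ∀ μ : Qb, μ ^ p ^ n = 1 → σ μ = μ ^ a) :
    (M σ).det - (a : T) ∈ maximalIdeal T ^ n := by
  obtain ⟨L3, hL3fd, hL3⟩ := hcont n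
  obtain ⟨ζ, hζ⟩ : ∃ ζ : Qb, IsPrimitiveRoot ζ (p ^ n) := by
    have : NeZero (p ^ n) := ⟨(pow_pos hp.pos n).ne'⟩
    have : NeZero ((p ^ n : ℕ) : Qb) := ⟨Nat.cast_ne_zero.mpr (NeZero.ne (p ^ n))⟩
    exact HasEnoughRootsOfUnity.exists_primitiveRoot Qb (p ^ n)
  have hζint : IsIntegral ℚ ζ := (AlgebraicClosure.isAlgebraic ℚ).isIntegral.isIntegral ζ
  let L2 : IntermediateField ℚ Qb := IntermediateField.adjoin ℚ {ζ}
  have hL2fd : FiniteDimensional ℚ L2 := IntermediateField.adjoin.finiteDimensional hζint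
  let L : IntermediateField ℚ Qb := L2 ⊔ L3
  have hLfd : FiniteDimensional ℚ L := inferInstance
  have hL3L : ∀ x ∈ L3, x ∈ L := fun x hx => (le_sup_right : L3 ≤ L) hx
  have hζL : ζ ∈ L := (le_sup_left : L2 ≤ L) (IntermediateField.mem_adjoin_simple_self ℚ ζ)
  obtain ⟨ℓ, hℓ, hℓS, A, hA, φ, hφ, b, hb⟩ := S29.frobenius_density_lite L S σ
  have hℓp : ℓ ≠ p := fun h => hℓS (h ▸ hpS)
  have hnd : ¬ ℓ ∣ p ^ n := fun hdvd =>
    hℓp ((Nat.prime_dvd_prime_iff_eq hℓ hp).mp (hℓ.dvd_of_dvd_pow hdvd))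
  -- the cyclotomic congruence
  have h1 : ζ ^ (ℓ ^ b) = ζ ^ a := by
    rw [← frob_pow_apply_root hℓ hA hφ hnd hζ.pow_eq_one b, hb ζ hζL, ha ζ hζ.pow_eq_one]
  have h2 : ℓ ^ b ≡ a [MOD p ^ n] := by
    have hfo : IsOfFinOrder ζ := isOfFinOrder_iff_pow_eq_one.mpr ⟨p ^ n, pow_pos hp.pos n, hζ.pow_eq_one⟩
    have := hfo.pow_eq_pow_iff_modEq.mp h1
    rwa [← hζ.eq_orderOf] at this
  have h3 : ((ℓ ^ b : ℕ) : T) - (a : T) ∈ maximalIdeal T ^ n := by
    obtain ⟨c, hc⟩ := (Nat.modEq_iff_dvd.mp h2.symm)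
    have h4 : ((ℓ ^ b : ℕ) : T) - (a : T) = (p : T) ^ n * (c : T) := by
      have := congrArg (Int.cast : ℤ → T) hc
      push_cast at this ⊢
      exact this
    rw [h4]
    exact Ideal.mul_mem_right _ _ (Ideal.pow_mem_pow hpT n)
  -- continuity
  set h : GQ := (φ ^ b)⁻¹ * σ with hh
  have hfix : ∀ x ∈ L3, h x = x := by
    intro x hx
    rw [hh, AlgEquiv.mul_apply, ← hb x (hL3L x hx)]
    exact (φ ^ b).symm_apply_apply x
  have hσ : σ = φ ^ b * h := by rw [hh, mul_inv_cancel_left]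
  have h5 : (M h).det - 1 ∈ maximalIdeal T ^ n := det_sub_one_mem _ _ (hL3 h hfix)
  have h6 : (M σ).det = ((ℓ ^ b : ℕ) : T) * (M h).det := by
    rw [hσ, map_mul, Matrix.det_mul, map_pow, Matrix.det_pow, hdet ℓ hℓ hℓS A hA φ hφ]
    push_cast
    rfl
  have h7 : (M σ).det - (a : T) =
      ((ℓ ^ b : ℕ) : T) * ((M h).det - 1) + (((ℓ ^ b : ℕ) : T) - (a : T)) := by
    rw [h6]; ring
  rw [h7]
  exact Ideal.add_mem _ (Ideal.mul_mem_left _ _ h5) h3

theorem det_of_charpoly {T : Type*} [CommRing T] [Nontrivial T]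
    (X : Matrix (Fin 2) (Fin 2) T) (a d : T)
    (h : X.charpoly = Polynomial.X ^ 2 - Polynomial.C a * Polynomial.X + Polynomial.C d) :
    X.det = d := by
  rw [Matrix.charpoly_fin_two] at h
  have := congrArg (fun f => Polynomial.coeff f 0) h
  simpa [Polynomial.coeff_X, Polynomial.coeff_C, Polynomial.coeff_X_pow] using this

theorem det_eq_of_charpoly_eq {T : Type} [CommRing T] [IsLocalRing T] (ρ : GaloisRepAdic T)
    (X : Matrix (Fin 2) (Fin 2) T) (σ : GQ) (h : X.charpoly = LinearMap.charpoly (ρ.ρ σ)) :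
    LinearMap.det (ρ.ρ σ) = X.det := by
  rw [LinearMap.det_eq_sign_charpoly_coeff, Matrix.det_eq_sign_charpoly_coeff, h, ρ.finrank_eq,
    Fintype.card_fin]

section

variable {p : ℕ} {N : ℕ} [NeZero N] {S : Finset ℕ}
  {𝒪 : Type} [CommRing 𝒪] [IsDomain 𝒪] [IsDiscreteValuationRing 𝒪]
  [IsAdicComplete (IsLocalRing.maximalIdeal 𝒪) 𝒪]
  {θ : CuspForm.heckeAlgebra N 2 (↑S : Set ℕ) →+* IsLocalRing.ResidueField 𝒪}
  {T : Type} [CommRing T] [IsLocalRing T] [IsNoetherianRing T]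
  [IsAdicComplete (IsLocalRing.maximalIdeal T) T] [Algebra 𝒪 T] [IsLocalHom (algebraMap 𝒪 T)]
  [Module.Finite 𝒪 T] [Module.Free 𝒪 T]

omit [IsAdicComplete (maximalIdeal 𝒪) 𝒪] [IsNoetherianRing T] [IsAdicComplete (maximalIdeal T) T]
  [Module.Finite 𝒪 T] [Module.Free 𝒪 T] in
theorem natCast_mem_maximalIdeal (hp𝒪 : (p : 𝒪) ∈ maximalIdeal 𝒪) : (p : T) ∈ maximalIdeal T := by
  have h1 : (p : T) = algebraMap 𝒪 T (p : 𝒪) := (map_natCast (algebraMap 𝒪 T) p).symm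
  rw [h1]
  exact map_nonunit (algebraMap 𝒪 T) _ hp𝒪

/-- **(D1)** `det ρ` is the `p`-adic cyclotomic character. -/
theorem det_sub_mem (hp : p.Prime) (hp𝒪 : (p : 𝒪) ∈ maximalIdeal 𝒪) (hpS : p ∈ S)
    (hNS : ∀ q : ℕ, q.Prime → q ∣ N → q ∈ S)
    (H : CuspForm.HeckeGaloisRepDatum N (↑S : Set ℕ) 𝒪 θ T)
    (n : ℕ) (σ : GQ) (a : ℕ) (ha : ∀ μ : Qb, μ ^ p ^ n = 1 → σ μ = μ ^ a) :
    LinearMap.det (H.ρ.ρ σ) - (a : T) ∈ maximalIdeal T ^ n := by
  obtain ⟨M, -, hMchar, hMcont, -⟩ := exists_matrix_form H.ρ H.residual_absIrr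
  rw [det_eq_of_charpoly_eq H.ρ (M σ) σ (hMchar σ)]
  refine det_cyclo_matrix p hp (natCast_mem_maximalIdeal hp𝒪) S hpS M hMcont ?_ n σ a ha
  intro ℓ hℓ hℓS A hA φ hφ
  have h1 := H.charpoly_frob ℓ hℓ (fun hd => hℓS (hNS ℓ hℓ hd))
    (fun h => hℓS (Finset.mem_coe.mp h)) A hA φ hφ
  rw [← hMchar] at h1
  exact det_of_charpoly _ _ _ h1

/-- **(D3)** an element of the inertia group at `p` whose determinant is not `1` modulo `𝔪`. -/
theorem exists_s0 (hp : p.Prime) (hp2 : p ≠ 2) (hp𝒪 : (p : 𝒪) ∈ maximalIdeal 𝒪) (hpS : p ∈ S)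
    (hNS : ∀ q : ℕ, q.Prime → q ∣ N → q ∈ S)
    (H : CuspForm.HeckeGaloisRepDatum N (↑S : Set ℕ) 𝒪 θ T)
    (P : ValuationSubring Qb) (hP : P.LiesOverPrime p) :
    ∃ s0 ∈ P.inertiaSubgroupIn ℚ, IsUnit (LinearMap.det (H.ρ.ρ s0) - 1) := by
  have : NeZero p := ⟨hp.ne_zero⟩
  obtain ⟨ζ, hζ⟩ : ∃ ζ : Qb, IsPrimitiveRoot ζ p := by
    have : NeZero ((p : ℕ) : Qb) := ⟨Nat.cast_ne_zero.mpr hp.ne_zero⟩
    exact HasEnoughRootsOfUnity.exists_primitiveRoot Qb p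
  obtain ⟨s0, hs0, hne⟩ := exists_inertia_ne hp hp2 P hP ζ hζ
  refine ⟨s0, hs0, ?_⟩
  have h1 : (s0 ζ) ^ p = 1 := by rw [← map_pow, hζ.pow_eq_one, map_one]
  obtain ⟨a, -, ha⟩ := hζ.eq_pow_of_pow_eq_one h1
  have hall : ∀ μ : Qb, μ ^ p ^ 1 = 1 → s0 μ = μ ^ a := by
    intro μ hμ
    rw [pow_one] at hμ
    obtain ⟨j, -, rfl⟩ := hζ.eq_pow_of_pow_eq_one hμ
    rw [map_pow, ← ha, ← pow_mul, ← pow_mul, mul_comm]
  have h2 := det_sub_mem hp hp𝒪 hpS hNS H 1 s0 a hall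
  rw [pow_one] at h2
  -- `a - 1` is prime to `p`
  have h3 : ¬ (p : ℤ) ∣ (a : ℤ) - 1 := by
    intro hd
    apply hne
    rw [← ha]
    have hmod : a ≡ 1 [MOD p] := by
      refine (Nat.modEq_iff_dvd.mpr ?_).symm
      simpa using hd
    have hfo : IsOfFinOrder ζ := isOfFinOrder_iff_pow_eq_one.mpr ⟨p, hp.pos, hζ.pow_eq_one⟩
    have h4 : ζ ^ a = ζ ^ 1 := hfo.pow_eq_pow_iff_modEq.mpr (by rwa [← hζ.eq_orderOf])
    rw [h4, pow_one]
  have h5 : IsUnit (((a : ℤ) - 1 : ℤ) : T) := by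
    have hcop : IsCoprime ((a : ℤ) - 1) (p : ℤ) :=
      ((Nat.prime_iff_prime_int.mp hp).coprime_iff_not_dvd.mpr h3).symm
    obtain ⟨u, v, huv⟩ := hcop
    have h6 : (u : T) * (((a : ℤ) - 1 : ℤ) : T) = 1 - (v : T) * (p : T) := by
      have := congrArg (Int.cast : ℤ → T) huv
      push_cast at this ⊢
      linear_combination this
    have h7 : IsUnit ((u : T) * (((a : ℤ) - 1 : ℤ) : T)) := by
      rw [h6]
      by_contra hnu
      have h8 : (1 : T) - (v : T) * (p : T) ∈ maximalIdeal T := (mem_maximalIdeal _).2 hnu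
      have h9 : (1 : T) ∈ maximalIdeal T := by
        have := Ideal.add_mem _ h8
          (Ideal.mul_mem_left _ (v : T) (natCast_mem_maximalIdeal (T := T) hp𝒪))
        simpa using this
      exact (Ideal.ne_top_iff_one _).mp (maximalIdeal.isMaximal T).ne_top h9
    exact isUnit_of_mul_isUnit_right h7
  by_contra hnu
  have h10 : LinearMap.det (H.ρ.ρ s0) - 1 ∈ maximalIdeal T := (mem_maximalIdeal _).2 hnu
  have h11 : (((a : ℤ) - 1 : ℤ) : T) ∈ maximalIdeal T := by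
    have : (((a : ℤ) - 1 : ℤ) : T) =
        (LinearMap.det (H.ρ.ρ s0) - 1) - (LinearMap.det (H.ρ.ρ s0) - (a : T)) := by
      push_cast; ring
    rw [this]
    exact Ideal.sub_mem _ h10 h2
  exact (mem_maximalIdeal _).1 h11 h5

end

end Fermat.Agent.S33
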