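import Fermat.Agent.S33.Det

set_option autoImplicit false

/-!
# S33 / E : inertia at `p` acts non trivially on the residual representation; cyclotomic data of `s0`
-/

namespace Fermat.Agent.S33

open IsLocalRing Fermat.Agent.S31

theorem det_sub_one_mem_of_forall {T : Type} [CommRing T] [IsLocalRing T] (ρ : GaloisRepAdic T)
    (I : Ideal T) (s : GQ) (h : ∀ v : ρ.V, ρ.ρ s v - v ∈ I • (⊤ : Submodule T ρ.V)) :
    LinearMap.det (ρ.ρ s) - 1 ∈ I := by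
  classical
  let b : Module.Basis (Fin 2) T ρ.V := Module.finBasisOfFinrankEq T ρ.V ρ.finrank_eq
  rw [← LinearMap.det_toMatrix b]
  apply det_sub_one_mem
  intro i j
  have h1 : (LinearMap.toMatrix b b (ρ.ρ s) - 1) i j = b.repr (ρ.ρ s (b j) - b j) i := by
    rw [Matrix.sub_apply, LinearMap.toMatrix_apply, map_sub, Finsupp.sub_apply,
      Module.Basis.repr_self, Matrix.one_apply, Finsupp.single_apply]
    simp only [eq_comm]
  rw [h1]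
  exact repr_mem_of_mem_smul_top b _ (h (b j)) i

/-- for every `n` an element of inertia at `p` acting on `μ_{p^n}` through an integer `a` with
`a - 1` invertible modulo `p ^ n`. -/
theorem exists_s0_cyclo {p : ℕ} (hp : p.Prime) (hp2 : p ≠ 2) (P : ValuationSubring Qb)
    (hP : P.LiesOverPrime p) (n : ℕ) :
    ∃ s0 ∈ P.inertiaSubgroupIn ℚ, ∃ (a : ℕ) (c : ℤ),
      (∀ μ : Qb, μ ^ p ^ n = 1 → s0 μ = μ ^ a) ∧ ((p ^ n : ℕ) : ℤ) ∣ c * ((a : ℤ) - 1) - 1 := by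
  have : NeZero p := ⟨hp.ne_zero⟩
  have : NeZero (p ^ (n + 1)) := ⟨(pow_pos hp.pos _).ne'⟩
  obtain ⟨ξ, hξ⟩ : ∃ ξ : Qb, IsPrimitiveRoot ξ (p ^ (n + 1)) := by
    have : NeZero ((p ^ (n + 1) : ℕ) : Qb) := ⟨Nat.cast_ne_zero.mpr (NeZero.ne _)⟩
    exact HasEnoughRootsOfUnity.exists_primitiveRoot Qb (p ^ (n + 1))
  -- `ζ = ξ ^ (p ^ n)` is a primitive `p`-th root of unity
  have hζ : IsPrimitiveRoot (ξ ^ p ^ n) p :=
    hξ.pow (pow_pos hp.pos _) (by rw [pow_succ, mul_comm])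
  obtain ⟨s0, hs0, hne⟩ := exists_inertia_ne hp hp2 P hP _ hζ
  have h1 : (s0 ξ) ^ p ^ (n + 1) = 1 := by rw [← map_pow, hξ.pow_eq_one, map_one]
  obtain ⟨a, -, ha⟩ := hξ.eq_pow_of_pow_eq_one h1
  have hall : ∀ μ : Qb, μ ^ p ^ (n + 1) = 1 → s0 μ = μ ^ a := by
    intro μ hμ
    obtain ⟨j, -, rfl⟩ := hξ.eq_pow_of_pow_eq_one hμ
    rw [map_pow, ← ha, ← pow_mul, ← pow_mul, mul_comm]
  have h3 : ¬ (p : ℤ) ∣ (a : ℤ) - 1 := by
    intro hd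
    apply hne
    rw [hall _ (by rw [← pow_mul, mul_comm, pow_mul, hξ.pow_eq_one, one_pow])]
    have hmod : a ≡ 1 [MOD p] := by
      refine (Nat.modEq_iff_dvd.mpr ?_).symm
      simpa using hd
    have hfo : IsOfFinOrder (ξ ^ p ^ n) :=
      isOfFinOrder_iff_pow_eq_one.mpr ⟨p, hp.pos, hζ.pow_eq_one⟩
    have h4 : (ξ ^ p ^ n) ^ a = (ξ ^ p ^ n) ^ 1 :=
      hfo.pow_eq_pow_iff_modEq.mpr (by rwa [← hζ.eq_orderOf])
    rw [h4, pow_one]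
  have hcop : IsCoprime ((a : ℤ) - 1) ((p ^ n : ℕ) : ℤ) := by
    push_cast
    exact (((Nat.prime_iff_prime_int.mp hp).coprime_iff_not_dvd.mpr h3).symm).pow_right
  obtain ⟨u, v, huv⟩ := hcop
  refine ⟨s0, hs0, a, u, fun μ hμ => hall μ ?_, ⟨-v, ?_⟩⟩
  · rw [pow_succ, pow_mul, hμ, one_pow]
  · linear_combination huv

section

variable {p : ℕ} {N : ℕ} [NeZero N] {S : Finset ℕ}
  {𝒪 : Type} [CommRing 𝒪] [IsDomain 𝒪] [IsDiscreteValuationRing 𝒪]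
  [IsAdicComplete (IsLocalRing.maximalIdeal 𝒪) 𝒪]
  {θ : CuspForm.heckeAlgebra N 2 (↑S : Set ℕ) →+* IsLocalRing.ResidueField 𝒪}
  {T : Type} [CommRing T] [IsLocalRing T] [IsNoetherianRing T]
  [IsAdicComplete (IsLocalRing.maximalIdeal T) T] [Algebra 𝒪 T] [IsLocalHom (algebraMap 𝒪 T)]
  [Module.Finite 𝒪 T] [Module.Free 𝒪 T]

/-- **(E)** inertia at `p` acts non trivially on `V / 𝔪 V`. -/
theorem exists_inertia_nontrivial (hp : p.Prime) (hp2 : p ≠ 2)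
    (hp𝒪 : (p : 𝒪) ∈ IsLocalRing.maximalIdeal 𝒪) (hN : p ∣ N ∧ ¬ p ^ 2 ∣ N)
    (hNS : ∀ q : ℕ, q.Prime → q ∣ N → q ∈ S)
    (H : CuspForm.HeckeGaloisRepDatum N (↑S : Set ℕ) 𝒪 θ T)
    (P : ValuationSubring (AlgebraicClosure ℚ)) (hP : P.LiesOverPrime p) :
    ∃ s ∈ P.inertiaSubgroupIn ℚ, ∃ v : H.ρ.V,
      H.ρ.ρ s v - v ∉ (IsLocalRing.maximalIdeal T) • (⊤ : Submodule T H.ρ.V) := by
  obtain ⟨s0, hs0, hu⟩ := exists_s0 hp hp2 hp𝒪 (hNS p hp hN.1) hNS H P hP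
  refine ⟨s0, hs0, ?_⟩
  by_contra hcon
  push Not at hcon
  exact (mem_maximalIdeal _).1 (det_sub_one_mem_of_forall H.ρ _ s0 hcon) hu

/-- the same for the residual representation. -/
theorem exists_inertia_residual_ne_one (hp : p.Prime) (hp2 : p ≠ 2)
    (hp𝒪 : (p : 𝒪) ∈ IsLocalRing.maximalIdeal 𝒪) (hpS : p ∈ S)
    (hNS : ∀ q : ℕ, q.Prime → q ∣ N → q ∈ S)
    (H : CuspForm.HeckeGaloisRepDatum N (↑S : Set ℕ) 𝒪 θ T)
    (P : ValuationSubring (AlgebraicClosure ℚ)) (hP : P.LiesOverPrime p) :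
    ∃ s0 ∈ P.inertiaSubgroupIn ℚ, H.ρ.residual.ρ s0 ≠ 1 := by
  obtain ⟨s0, hs0, hu⟩ := exists_s0 hp hp2 hp𝒪 hpS hNS H P hP
  refine ⟨s0, hs0, fun h1 => ?_⟩
  have h2 : (H.ρ.ρ s0).baseChange (ResidueField T) = 1 := h1
  have h3 := LinearMap.det_baseChange (A := ResidueField T) (H.ρ.ρ s0)
  rw [h2, map_one] at h3
  have h4 : residue T (LinearMap.det (H.ρ.ρ s0) - 1) = 0 := by
    rw [map_sub, map_one, sub_eq_zero]
    exact h3.symm
  exact (mem_maximalIdeal _).1 ((residue_eq_zero_iff _).1 h4) hu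

end

end Fermat.Agent.S33
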