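import Mathlib

set_option autoImplicit false

/-!
# S33 / (EV), polynomial core

Gauss' lemma for an arbitrary valuation, and: two monic polynomials of the same degree with
`c₀ P₁ ^ m ≡ P₂ ^ m` are congruent modulo `(modulus) / m`.
-/

namespace Fermat.Agent.S33.EV

open Polynomial

variable {K Γ : Type*} [Field K] [LinearOrderedCommGroupWithZero Γ] (v : Valuation K Γ)

/-- the least index at which the valuation of the coefficients is maximal. -/
theorem exists_first_max (Q : K[X]) (hQ : Q ≠ 0) :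
    ∃ i₀, Q.coeff i₀ ≠ 0 ∧ (∀ i, v (Q.coeff i) ≤ v (Q.coeff i₀)) ∧
      ∀ i, i < i₀ → v (Q.coeff i) < v (Q.coeff i₀) := by
  classical
  have hne : Q.support.Nonempty := by
    rwa [Finset.nonempty_iff_ne_empty, Ne, Polynomial.support_eq_empty]
  obtain ⟨i₁, hi₁, hmax⟩ := Finset.exists_max_image Q.support (fun i => v (Q.coeff i)) hne
  have hall : ∀ i, v (Q.coeff i) ≤ v (Q.coeff i₁) := by
    intro i
    by_cases hi : i ∈ Q.support
    · exact hmax i hi
    · rw [Polynomial.notMem_support_iff.mp hi, map_zero]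
      exact zero_le
  have hex : ∃ i, v (Q.coeff i) = v (Q.coeff i₁) := ⟨i₁, rfl⟩
  refine ⟨Nat.find hex, ?_, ?_, ?_⟩
  · intro h0
    have h1 := Nat.find_spec hex
    rw [h0, map_zero] at h1
    exact (Polynomial.mem_support_iff.mp hi₁) ((map_eq_zero v).mp h1.symm)
  · intro i
    rw [Nat.find_spec hex]
    exact hall i
  · intro i hi
    rw [Nat.find_spec hex]
    exact lt_of_le_of_ne (hall i) (Nat.find_min hex hi)

/-- **Gauss' lemma**. -/
theorem gauss_mul (Q S : K[X]) (g : Γ) (h : ∀ k, v ((Q * S).coeff k) ≤ g) (i j : ℕ) :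
    v (Q.coeff i) * v (S.coeff j) ≤ g := by
  classical
  by_cases hQ : Q = 0
  · simp [hQ]
  by_cases hS : S = 0
  · simp [hS]
  obtain ⟨i₀, hi₀, hQmax, hQlt⟩ := exists_first_max v Q hQ
  obtain ⟨j₀, hj₀, hSmax, hSlt⟩ := exists_first_max v S hS
  have hvi : v (Q.coeff i₀) ≠ 0 := (Valuation.ne_zero_iff v).mpr hi₀
  have hvj : v (S.coeff j₀) ≠ 0 := (Valuation.ne_zero_iff v).mpr hj₀
  have hkey : v ((Q * S).coeff (i₀ + j₀)) = v (Q.coeff i₀) * v (S.coeff j₀) := by
    rw [Polynomial.coeff_mul]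
    have hmem : (i₀, j₀) ∈ Finset.HasAntidiagonal.antidiagonal (i₀ + j₀) := by simp
    rw [← Finset.add_sum_erase _ _ hmem]
    have hlt : v (∑ x ∈ (Finset.HasAntidiagonal.antidiagonal (i₀ + j₀)).erase (i₀, j₀),
        Q.coeff x.1 * S.coeff x.2) < v (Q.coeff i₀ * S.coeff j₀) := by
      apply Valuation.map_sum_lt v
      · rw [map_mul]; exact mul_ne_zero hvi hvj
      · rintro ⟨a, b⟩ hab
        rw [Finset.mem_erase, Finset.HasAntidiagonal.mem_antidiagonal] at hab
        obtain ⟨hne, hsum⟩ := hab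
        simp only at hsum
        rw [map_mul, map_mul]
        rcases lt_trichotomy a i₀ with ha | ha | ha
        · rw [mul_comm (v (Q.coeff a)), mul_comm (v (Q.coeff i₀))]
          exact mul_lt_mul_of_le_of_lt_of_nonneg_of_pos (hSmax b) (hQlt a ha) zero_le
            (zero_lt_iff.mpr hvj)
        · exfalso
          apply hne
          subst ha
          have : b = j₀ := by omega
          rw [this]
        · have hb : b < j₀ := by omega
          exact mul_lt_mul_of_le_of_lt_of_nonneg_of_pos (hQmax a) (hSlt b hb) zero_le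
            (zero_lt_iff.mpr hvi)
    rw [add_comm, Valuation.map_add_eq_of_lt_right v hlt, map_mul]
  calc v (Q.coeff i) * v (S.coeff j) ≤ v (Q.coeff i₀) * v (S.coeff j₀) :=
        mul_le_mul' (hQmax i) (hSmax j)
    _ = v ((Q * S).coeff (i₀ + j₀)) := hkey.symm
    _ ≤ g := h _

/-- coefficients of a power of an integral polynomial are integral. -/
theorem coeff_pow_le_one (P : K[X]) (hP : ∀ k, v (P.coeff k) ≤ 1) (m k : ℕ) :
    v ((P ^ m).coeff k) ≤ 1 := by
  have hmem : P ∈ Polynomial.lifts (v.integer.subtype) := by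
    rw [Polynomial.lifts_iff_coeff_lifts]
    intro n
    exact ⟨⟨P.coeff n, hP n⟩, rfl⟩
  have h2 : P ^ m ∈ Polynomial.lifts (v.integer.subtype) := pow_mem hmem m
  rw [Polynomial.lifts_iff_coeff_lifts] at h2
  obtain ⟨y, hy⟩ := h2 k
  rw [← hy]
  exact y.2

/-- the leading coefficient of `∑ P₁ ^ i P₂ ^ (m - 1 - i)`. -/
theorem coeff_geom_sum (m : ℕ) (P1 P2 : K[X]) (h1 : P1.Monic) (h2 : P2.Monic)
    (hd : P1.natDegree = P2.natDegree) :
    (∑ i ∈ Finset.range m, P1 ^ i * P2 ^ (m - 1 - i)).coeff ((m - 1) * P1.natDegree) = (m : K) := by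
  rw [Polynomial.finsetSum_coeff]
  have : ∀ i ∈ Finset.range m, (P1 ^ i * P2 ^ (m - 1 - i)).coeff ((m - 1) * P1.natDegree) = 1 := by
    intro i hi
    have hi' := Finset.mem_range.mp hi
    have hmon : (P1 ^ i * P2 ^ (m - 1 - i)).Monic := (h1.pow i).mul (h2.pow _)
    have hdeg : (P1 ^ i * P2 ^ (m - 1 - i)).natDegree = (m - 1) * P1.natDegree := by
      rw [(h1.pow i).natDegree_mul (h2.pow _), h1.natDegree_pow, h2.natDegree_pow, ← hd, ← add_mul]
      congr 1
      omega
    rw [← hdeg]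
    exact hmon.coeff_natDegree
  rw [Finset.sum_congr rfl this]
  simp

/-- **(EV), polynomial core**. -/
theorem ev_poly (m : ℕ) (P1 P2 : K[X]) (h1 : P1.Monic) (h2 : P2.Monic)
    (hd : P1.natDegree = P2.natDegree) (hP1 : ∀ k, v (P1.coeff k) ≤ 1) (c0 : K) (g : Γ)
    (h : ∀ k, v ((C c0 * P1 ^ m - P2 ^ m).coeff k) ≤ g) (k : ℕ) :
    v (m : K) * v ((P1 - P2).coeff k) ≤ g := by
  -- the leading coefficient gives `c0 ≡ 1`
  have hc0 : v (c0 - 1) ≤ g := by
    have h3 := h (m * P1.natDegree)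
    have e1 : (P1 ^ m).coeff (m * P1.natDegree) = 1 := by
      have := (h1.pow m).coeff_natDegree
      rwa [h1.natDegree_pow] at this
    have e2 : (P2 ^ m).coeff (m * P1.natDegree) = 1 := by
      have := (h2.pow m).coeff_natDegree
      rwa [h2.natDegree_pow, ← hd] at this
    rwa [Polynomial.coeff_sub, Polynomial.coeff_C_mul, e1, e2, mul_one] at h3
  have h4 : ∀ k, v ((P1 ^ m - P2 ^ m).coeff k) ≤ g := by
    intro k
    have e : (P1 ^ m - P2 ^ m).coeff k =
        (C c0 * P1 ^ m - P2 ^ m).coeff k - (c0 - 1) * (P1 ^ m).coeff k := by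
      simp only [Polynomial.coeff_sub, Polynomial.coeff_C_mul]
      ring
    rw [e]
    refine (Valuation.map_sub v _ _).trans (max_le (h k) ?_)
    rw [map_mul]
    calc v (c0 - 1) * v ((P1 ^ m).coeff k) ≤ g * 1 :=
          mul_le_mul' hc0 (coeff_pow_le_one v P1 hP1 m k)
      _ = g := mul_one g
  rw [← (Commute.all P1 P2).mul_geom_sum₂ m] at h4
  have h5 := gauss_mul v _ _ g h4 k ((m - 1) * P1.natDegree)
  rw [coeff_geom_sum m P1 P2 h1 h2 hd] at h5
  rwa [mul_comm] at h5

/-- evaluation form. -/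
theorem ev_eval (m : ℕ) (P1 P2 : K[X]) (h1 : P1.Monic) (h2 : P2.Monic)
    (hd : P1.natDegree = P2.natDegree) (hP1 : ∀ k, v (P1.coeff k) ≤ 1) (c0 : K) (g : Γ)
    (h : ∀ k, v ((C c0 * P1 ^ m - P2 ^ m).coeff k) ≤ g) (t : K) (ht : v t ≤ 1) :
    v (m : K) * v (P1.eval t - P2.eval t) ≤ g := by
  rw [← Polynomial.eval_sub, Polynomial.eval_eq_sum_range, ← map_mul, Finset.mul_sum]
  apply Valuation.map_sum_le v
  intro i _
  rw [map_mul, map_mul, map_pow, ← mul_assoc]
  calc v (m : K) * v ((P1 - P2).coeff i) * v t ^ i ≤ g * 1 :=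
        mul_le_mul' (ev_poly v m P1 P2 h1 h2 hd hP1 c0 g h i) (pow_le_one' ht i)
    _ = g := mul_one g

end Fermat.Agent.S33.EV
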