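import Fermat.Agent.S33.UT

set_option autoImplicit false

/-!
# S33 / Ext : `UT` is stable under extensions  (U4)
-/

namespace Fermat.Agent.S33

variable {G X X' : Type} [Group G] [AddCommGroup X] [AddCommGroup X']

/-- the action of `ℤ[G]` on a vector. -/
noncomputable def zact (act : G →* AddMonoid.End X) (x : X) : (G →₀ ℤ) →+ X :=
  Finsupp.liftAddHom (fun g => (smulAddHom ℤ X).flip (act g x))

theorem zact_apply (act : G →* AddMonoid.End X) (x : X) (u : G →₀ ℤ) :
    zact act x u = u.sum fun g c => c • act g x := rfl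

theorem zact_single (act : G →* AddMonoid.End X) (x : X) (g : G) (c : ℤ) :
    zact act x (Finsupp.single g c) = c • act g x := by
  rw [zact_apply, Finsupp.sum_single_index (by rw [zero_smul])]

/-- the augmentation. -/
noncomputable def zeps : (G →₀ ℤ) →+ ℤ := Finsupp.liftAddHom (fun _ => AddMonoidHom.id ℤ)

theorem zeps_apply (u : G →₀ ℤ) : zeps u = u.sum fun _ c => c := rfl

theorem zeps_single (g : G) (c : ℤ) : zeps (Finsupp.single g c) = c := by
  rw [zeps_apply, Finsupp.sum_single_index rfl]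

/-- the product of `ℤ[G]`. -/
noncomputable def zconv (u v : G →₀ ℤ) : G →₀ ℤ :=
  u.sum fun g c => v.sum fun h d => Finsupp.single (g * h) (c * d)

theorem zact_zconv (act : G →* AddMonoid.End X) (x : X) (u v : G →₀ ℤ) :
    zact act x (zconv u v) = zact act (zact act x v) u := by
  unfold zconv
  rw [map_finsuppSum, zact_apply act (zact act x v) u]
  refine Finsupp.sum_congr fun g _ => ?_
  rw [map_finsuppSum, zact_apply act x v, Finsupp.sum, Finsupp.sum, map_sum, Finset.smul_sum]
  refine Finset.sum_congr rfl fun h _ => ?_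
  rw [zact_single, map_mul, map_zsmul, mul_smul]
  rfl

theorem zeps_zconv (u v : G →₀ ℤ) : zeps (zconv u v) = zeps u * zeps v := by
  unfold zconv
  rw [map_finsuppSum, zeps_apply u, Finsupp.sum, Finsupp.sum, Finset.sum_mul]
  refine Finset.sum_congr rfl fun g _ => ?_
  rw [map_finsuppSum, zeps_apply v, Finsupp.sum, Finsupp.sum, Finset.mul_sum]
  exact Finset.sum_congr rfl fun h _ => zeps_single _ _

theorem support_zconv (I : Subgroup G) {u v : G →₀ ℤ} (hu : ∀ g ∈ u.support, g ∈ I)
    (hv : ∀ g ∈ v.support, g ∈ I) : ∀ g ∈ (zconv u v).support, g ∈ I := by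
  classical
  intro k hk
  have h1 := Finsupp.support_sum hk
  obtain ⟨g, hg, h2⟩ := Finset.mem_biUnion.1 h1
  have h3 := Finsupp.support_sum h2
  obtain ⟨h, hh, h4⟩ := Finset.mem_biUnion.1 h3
  have h5 := Finsupp.support_single_subset h4
  rw [Finset.mem_singleton] at h5
  rw [h5]
  exact I.mul_mem (hu g hg) (hv h hh)

theorem IsAug.add {I : Subgroup G} {u v : G →₀ ℤ} (hu : IsAug I u) (hv : IsAug I v) :
    IsAug I (u + v) := by
  classical
  refine ⟨fun g hg => ?_, ?_⟩
  · rcases Finset.mem_union.1 (Finsupp.support_add hg) with h | h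
    · exact hu.1 g h
    · exact hv.1 g h
  · have : zeps (u + v) = 0 := by
      rw [map_add]
      have h1 : zeps u = 0 := hu.2
      have h2 : zeps v = 0 := hv.2
      rw [h1, h2, add_zero]
    exact this

theorem IsAug.neg {I : Subgroup G} {u : G →₀ ℤ} (hu : IsAug I u) : IsAug I (-u) := by
  refine ⟨fun g hg => hu.1 g (by rwa [Finsupp.support_neg] at hg), ?_⟩
  have : zeps (-u) = 0 := by
    rw [map_neg]
    have h1 : zeps u = 0 := hu.2
    rw [h1, neg_zero]
  exact this

theorem IsAug.zconv {I : Subgroup G} {u v : G →₀ ℤ} (hu : IsAug I u) (hv : IsAug I v) :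
    IsAug I (zconv u v) := by
  refine ⟨support_zconv I hu.1 hv.1, ?_⟩
  have : zeps (Fermat.Agent.S33.zconv u v) = 0 := by
    rw [zeps_zconv]
    have h1 : zeps u = 0 := hu.2
    rw [h1, zero_mul]
  exact this

/-- an element of `ℤ[I]` preserves an `I`-stable subgroup. -/
theorem zact_mem {I : Subgroup G} {act : G →* AddMonoid.End X} {K : AddSubgroup X}
    (hK : Stab I act K) {u : G →₀ ℤ} (hu : ∀ g ∈ u.support, g ∈ I) {x : X} (hx : x ∈ K) :
    zact act x u ∈ K := by
  rw [zact_apply]
  exact K.sum_mem fun g hg => K.zsmul_mem (hK g (hu g hg) x hx) _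

/-- equivariant maps commute with the action of `ℤ[G]`. -/
theorem map_zact {act : G →* AddMonoid.End X} {act' : G →* AddMonoid.End X'} (φ : X →+ X')
    (hφ : ∀ g x, φ (act g x) = act' g (φ x)) (x : X) (u : G →₀ ℤ) :
    φ (zact act x u) = zact act' (φ x) u := by
  rw [zact_apply, zact_apply, map_finsuppSum]
  exact Finsupp.sum_congr fun g _ => by rw [map_zsmul, hφ]

/-- additivity of the action in the vector. -/
theorem zact_sub_vec (act : G →* AddMonoid.End X) (x y : X) (u : G →₀ ℤ) :
    zact act (x - y) u = zact act x u - zact act y u := by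
  rw [zact_apply, zact_apply, zact_apply, ← Finsupp.sum_sub]
  exact Finsupp.sum_congr fun g _ => by rw [map_sub, smul_sub]

/-- **(U4)**: `UT` is stable under extensions. -/
theorem UT.of_ext {I : Subgroup G} {act : G →* AddMonoid.End X} {act' : G →* AddMonoid.End X'}
    (φ : X →+ X') (hφ : ∀ g x, φ (act g x) = act' g (φ x)) {K : AddSubgroup X}
    (hK : Stab I act K) {K' : AddSubgroup X'} (hKK' : ∀ x ∈ K, φ x ∈ K') (h' : UT I act' K')
    (h'' : UT I act (K ⊓ φ.ker)) : UT I act K := by
  obtain ⟨u', hu', h1⟩ := h'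
  obtain ⟨u'', hu'', h2⟩ := h''
  refine ⟨u' + u'' + -(zconv u'' u'), (hu'.add hu'').add (hu''.zconv hu').neg, fun x hx => ?_⟩
  have hy : x - zact act x u' ∈ K ⊓ φ.ker := by
    refine AddSubgroup.mem_inf.2 ⟨K.sub_mem hx (zact_mem hK hu'.1 hx), ?_⟩
    rw [AddMonoidHom.mem_ker, map_sub, map_zact φ hφ]
    have := h1 (φ x) (hKK' x hx)
    rw [← zact_apply] at this
    rw [this, sub_self]
  have h3 := h2 _ hy
  rw [← zact_apply, zact_sub_vec] at h3
  rw [← zact_apply, map_add, map_add, map_neg, zact_zconv]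
  -- `u'' x - u'' (u' x) = x - u' x`
  have h4 : zact act x u'' = x - zact act x u' + zact act (zact act x u') u'' := by
    rw [← h3]; abel
  rw [h4]
  abel

end Fermat.Agent.S33
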