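import Fermat.Agent.S34.Level
import Fermat.Agent.GES.System

set_option autoImplicit false

/-!
# S33: descent of a relation of `ℤ[G_ℚ]` from level `N * r` to level `N`

`S34.exists_geo` needs an auxiliary prime `r ∣ N`; the geometric chapter is therefore run at level
`N * r`.  A relation which kills `V_m(N r)` kills `V_m(N)` up to the factor `[F_{N r} : F_N]`.
-/

noncomputable section

namespace Fermat.Agent.S33

open Fermat.Agent.GES Fermat.Agent.S34

variable (N r : ℕ) [NeZero N] [NeZero r]

theorem up_actV (m : ℕ) (σ : GQ) (x : VN N m) :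
    up N r m (actV N m σ x) = actV (N * r) m σ (up N r m x) :=
  up_rhoV N r m σ x

/-- `up` commutes with every element of `ℤ[G_ℚ]`. -/
theorem up_sum (m : ℕ) (u : GQ →₀ ℤ) (x : VN N m) :
    up N r m (u.sum fun g c => c • actV N m g x) =
      u.sum fun g c => c • actV (N * r) m g (up N r m x) := by
  rw [Finsupp.sum, map_sum, Finsupp.sum]
  refine Finset.sum_congr rfl fun g _ => ?_
  rw [map_zsmul, up_actV]

/-- descent of a general relation. -/
theorem rel_descend (m : ℕ) [NeZero m] (u : GQ →₀ ℤ)
    (h : ∀ w : VN (N * r) m, (u.sum fun g c => c • actV (N * r) m g w) = 0) (w : VN N m) :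
    (deg N r : ℤ) • (u.sum fun g c => c • actV N m g w) = 0 := by
  rw [natCast_zsmul, ← down_up N r m, up_sum, h, map_zero]

/-- descent of the relation `u (s - 1) = 0`. -/
theorem u_descend (m : ℕ) [NeZero m] (u : GQ →₀ ℤ) (s : GQ)
    (h : ∀ w : VN (N * r) m,
      (u.sum fun g c => c • actV (N * r) m g (actV (N * r) m s w - w)) = 0) (w : VN N m) :
    (deg N r : ℤ) • (u.sum fun g c => c • actV N m g (actV N m s w - w)) = 0 := by
  rw [natCast_zsmul, ← down_up N r m, up_sum, map_sub, up_actV, h, map_zero]

theorem deg_ne_zero : (deg N r : ℤ) ≠ 0 := by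
  exact_mod_cast (deg_pos N r).ne'

end Fermat.Agent.S33
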