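import Fermat.Agent.S33.TopUD
import Fermat.Agent.S33.Calc
import Fermat.Agent.S33.Br
import Fermat.Agent.S33.E
import Fermat.Agent.S33.N67
import Fermat.Agent.S33.LevelU
import Fermat.Agent.NEW.Defs
import Fermat.Agent.S17.WMW.Open

set_option autoImplicit false

/-!
# S33 / Final : the assembly

`(O)` (no trivial subquotient of `I.V_{p^n}(M)`, `p ∤ M`) and `(N)` (orthogonality of the classes of
`Br` killed by both norms to `(t - 1) W`) as explicit hypotheses `⟹` the frozen statement.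
-/

namespace Fermat.Agent.S33

open CuspForm Fermat.Agent.S31 Fermat.Agent.GES Fermat.Agent.NEW
open Fermat.Agent.S24 (isFF1_FN)
open Fermat.Agent.S41.WP (weil)

/-- the statement of chapter (O) at level `M`. -/
def HypO (p M : ℕ) [NeZero M] : Prop :=
  ∀ P : ValuationSubring Qb, P.LiesOverPrime p → ∀ n : ℕ,
    NT (P.inertiaSubgroupIn ℚ) (actV M (p ^ n)) (aug (P.inertiaSubgroupIn ℚ) (actV M (p ^ n)))

/-- the statement of chapter (N) at level `M * p`. -/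
def HypN (p M : ℕ) [NeZero M] [NeZero p] : Prop :=
  ∀ P : ValuationSubring Qb, P.LiesOverPrime p → ∀ (n : ℕ) [NeZero (p ^ n)],
    ∀ x ∈ Br P M p (p ^ n), alphaV M p (p ^ n) x = 0 → betaV M p (p ^ n) x = 0 →
      ∀ t ∈ P.inertiaSubgroupIn ℚ, ∀ y : VN (M * p) (p ^ n),
        weil (isFF1_FN (M * p)) (p ^ n) x (rhoV (M * p) (p ^ n) t y - y) = 1

/-- `UT (I.W_n)` at level `M * p`. -/
theorem ut_level {p : ℕ} (hp : p.Prime) (hp2 : p ≠ 2) (M : ℕ) [NeZero M] [NeZero p]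
    (hpM : ¬ p ∣ M) (hO : HypO p M) (hN : HypN p M)
    (P : ValuationSubring Qb) (hP : P.LiesOverPrime p) (n : ℕ) :
    UT (P.inertiaSubgroupIn ℚ) (actV (M * p) (p ^ n))
      (aug (P.inertiaSubgroupIn ℚ) (actV (M * p) (p ^ n))) := by
  have : NeZero (p ^ n) := ⟨pow_ne_zero _ hp.ne_zero⟩
  have hc : Nat.Coprime p M := (Nat.Prime.coprime_iff_not_dvd hp).2 hpM
  set I := P.inertiaSubgroupIn ℚ with hI
  set m := p ^ n with hm
  have hfin : Finite (VN M m) := S17.WMW.finite_VN M m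
  have hα : ∀ g x, alphaV M p m (actV (M * p) m g x) = actV M m g (alphaV M p m x) :=
    fun g x => alphaV_rhoV M p m g x
  have hβ : ∀ g x, betaV M p m (actV (M * p) m g x) = actV M m g (betaV M p m x) :=
    fun g x => betaV_rhoV M p m g x
  let K0 : AddSubgroup (VN M m) := aug I (actV M m)
  have hK0 : UT I (actV M m) K0 := UT.of_nt (stab_aug I _) (hO P hP n)
  let K : AddSubgroup (VN (M * p) m) :=
    Br P M p m ⊓ K0.comap (alphaV M p m) ⊓ K0.comap (betaV M p m)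
  have hKmem : ∀ x, x ∈ K ↔ x ∈ Br P M p m ∧ alphaV M p m x ∈ K0 ∧ betaV M p m x ∈ K0 := by
    intro x
    constructor
    · rintro ⟨⟨h1, h2⟩, h3⟩
      exact ⟨h1, h2, h3⟩
    · rintro ⟨h1, h2, h3⟩
      exact ⟨⟨h1, h2⟩, h3⟩
  have hKstab : Stab I (actV (M * p) m) K := by
    intro s hs x hx
    obtain ⟨h1, h2, h3⟩ := (hKmem x).1 hx
    refine (hKmem _).2 ⟨Br_stable hc (mem_decomposition_of_mem_inertia P hs) h1, ?_, ?_⟩
    · rw [hα]
      exact stab_aug I _ s hs _ h2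
    · rw [hβ]
      exact stab_aug I _ s hs _ h3
  have hle : aug I (actV (M * p) m) ≤ K := by
    refine (AddSubgroup.closure_le _).2 ?_
    rintro _ ⟨s, hs, x, rfl⟩
    refine (hKmem _).2 ⟨sub_mem_Br hc hp hP hs x, ?_, ?_⟩
    · rw [map_sub, hα]
      exact sub_mem_aug _ hs _
    · rw [map_sub, hβ]
      exact sub_mem_aug _ hs _
  refine UT.mono hle ?_
  have hK1stab : Stab I (actV (M * p) m) (K ⊓ (alphaV M p m).ker) := by
    intro s hs x hx
    refine ⟨hKstab s hs x hx.1, ?_⟩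
    show actV (M * p) m s x ∈ (alphaV M p m).ker
    rw [AddMonoidHom.mem_ker, hα, (AddMonoidHom.mem_ker.1 hx.2), map_zero]
  refine UT.of_ext (alphaV M p m) hα hKstab (K' := K0) (fun x hx => ((hKmem x).1 hx).2.1) hK0 ?_
  refine UT.of_ext (betaV M p m) hβ hK1stab (K' := K0) (fun x hx => ((hKmem x).1 hx.1).2.2) hK0 ?_
  obtain ⟨s0, hs0, a, c, ha, hac⟩ := exists_s0_cyclo hp hp2 P hP n
  refine UT.of_scalar m (fun x _ => Vm.nsmul_eq_zero x) hs0 (a : ℤ) c hac ?_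
  intro x hx
  have hxBr : x ∈ Br P M p m := ((hKmem x).1 hx.1.1).1
  have h1 := eps_of_orth (M * p) x s0 a ha
    (fun y => hN P hP n x hxBr (AddMonoidHom.mem_ker.1 hx.1.2) (AddMonoidHom.mem_ker.1 hx.2)
      s0 hs0 y)
  rw [natCast_zsmul]
  exact h1

/-- a relation at level `N'`, as a predicate of the level. -/
def RelAt (I : Subgroup GES.GQ) (m : ℕ) (u : GES.GQ →₀ ℤ) (N' : ℕ) : Prop :=
  ∀ s ∈ I, ∀ w : VN N' m, (u.sum fun g c => c • actV N' m g (actV N' m s w - w)) = 0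

variable {p : ℕ} {N : ℕ} [NeZero N] {S : Finset ℕ}
  {𝒪 : Type} [CommRing 𝒪] [IsDomain 𝒪] [IsDiscreteValuationRing 𝒪]
  [IsAdicComplete (IsLocalRing.maximalIdeal 𝒪) 𝒪]
  {θ : CuspForm.heckeAlgebra N 2 (↑S : Set ℕ) →+* IsLocalRing.ResidueField 𝒪}
  {T : Type} [CommRing T] [IsLocalRing T] [IsNoetherianRing T]
  [IsAdicComplete (IsLocalRing.maximalIdeal T) T] [Algebra 𝒪 T] [IsLocalHom (algebraMap 𝒪 T)]
  [Module.Finite 𝒪 T] [Module.Free 𝒪 T]

/-- **the assembly**: `r` is the auxiliary prime of S34 (`r = 3`, or `r = 2` if `p = 3`). -/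
theorem final [CharZero 𝒪] [NeZero p]
    (hp : p.Prime) (hp2 : p ≠ 2) (hp𝒪 : (p : 𝒪) ∈ IsLocalRing.maximalIdeal 𝒪)
    (hN : p ∣ N ∧ ¬ p ^ 2 ∣ N)
    (hNS : ∀ q : ℕ, q.Prime → q ∣ N → q ∈ S)
    (H : CuspForm.HeckeGaloisRepDatum N (↑S : Set ℕ) 𝒪 θ T)
    (hres : (GaloisRepAdic.ofResidualGaloisRep H.ρ.residual).IsOrdinaryAt p)
    (r : ℕ) [NeZero r] (hr : ¬ p ∣ r)
    (hO : ∀ (M : ℕ) [NeZero M], ¬ p ∣ M → HypO p M)
    (hNN : ∀ (M : ℕ) [NeZero M], ¬ p ∣ M → r ∣ M → HypN p M) :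
    H.ρ.IsOrdinaryAt p := by
  have hpS : p ∈ S := hNS p hp hN.1
  obtain ⟨M0, hM0⟩ := hN.1
  have hM0ne : NeZero M0 := ⟨by rintro rfl; exact NeZero.ne N (by rw [hM0, mul_zero])⟩
  have hpM0 : ¬ p ∣ M0 := by
    intro h
    apply hN.2
    rw [hM0, pow_two]
    exact Nat.mul_dvd_mul_left p h
  have hMr : ¬ p ∣ M0 * r := fun h => (hp.dvd_mul.1 h).elim hpM0 hr
  have hlev : M0 * r * p = N * r := by rw [hM0]; ring
  refine ordinary_of_u_d hp hp𝒪 hpS hNS H hres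
    (fun P hP => exists_inertia_residual_ne_one hp hp2 hp𝒪 hpS hNS H P hP)
    (S34.deg N r : ℤ) (deg_ne_zero N r) ?_
  intro P hP n
  have : NeZero (p ^ n) := ⟨pow_ne_zero _ hp.ne_zero⟩
  obtain ⟨u, h1, h2, h3⟩ := u_of_UT (ut_level hp hp2 (M0 * r) hMr (hO (M0 * r) hMr)
    (hNN (M0 * r) hMr (Dvd.intro_left M0 rfl)) P hP n)
  have h4 : RelAt (P.inertiaSubgroupIn ℚ) (p ^ n) u (M0 * r * p) :=
    fun s hs w => h3 _ (sub_mem_aug _ hs w)
  rw [hlev] at h4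
  exact ⟨u, h1, h2, fun s hs w => u_descend N r (p ^ n) u s (h4 s hs) w⟩

end Fermat.Agent.S33
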