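import Fermat.Agent.S33.Geo

set_option autoImplicit false

/-!
# S33 / FinalS : the frozen statement from the outputs of chapters (O) and (N)
-/

namespace Fermat.Agent.S33

open Fermat.Agent.GES
open Fermat.Agent.S24 (Kb)

/-- the geometric input of `top_d` at an arbitrary level `N`, `p ∥ N`. -/
theorem geo_d (hO : OStatement) (hNs : NStatement) (N p : ℕ) [NeZero N] (hp : p.Prime)
    (hp2 : p ≠ 2) (hN : p ∣ N ∧ ¬ p ^ 2 ∣ N) :
    ∃ d : ℤ, d ≠ 0 ∧ ∀ P : ValuationSubring (AlgebraicClosure ℚ), P.LiesOverPrime p → ∀ n : ℕ,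
      ∃ u : GQ →₀ ℤ, IsAug (P.inertiaSubgroupIn ℚ) u ∧ ∀ s ∈ P.inertiaSubgroupIn ℚ,
        ∀ w : VN N (p ^ n),
          d • ((u.sum fun g c => c • actV N (p ^ n) g (actV N (p ^ n) s w - w)) -
            (actV N (p ^ n) s w - w)) = 0 := by
  obtain ⟨r, hr, hrp, hrne⟩ : ∃ r : ℕ, ((p ≠ 3 ∧ r = 3) ∨ (p = 3 ∧ r = 2)) ∧ r.Prime ∧ r ≠ p := by
    by_cases h : p = 3
    · exact ⟨2, Or.inr ⟨h, rfl⟩, Nat.prime_two, by omega⟩
    · exact ⟨3, Or.inl ⟨h, rfl⟩, Nat.prime_three, fun h' => h h'.symm⟩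
  have : NeZero r := ⟨hrp.ne_zero⟩
  obtain ⟨M, hM⟩ := hN.1
  have hNM : N = M * p := by rw [hM, mul_comm]
  subst hNM
  have hM0 : M ≠ 0 := by
    rintro rfl
    exact NeZero.ne (0 * p) (zero_mul p)
  have : NeZero M := ⟨hM0⟩
  have : NeZero (M * r) := ⟨mul_ne_zero hM0 hrp.ne_zero⟩
  have hpM : ¬ p ∣ M := fun h => hN.2 (by rw [pow_two]; exact Nat.mul_dvd_mul h dvd_rfl)
  have hpMr : ¬ p ∣ M * r := by
    intro h
    rcases (Nat.Prime.dvd_mul hp).1 h with h | h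
    · exact hpM h
    · exact hrne ((Nat.prime_dvd_prime_iff_eq hp hrp).1 h).symm
  refine ⟨(S34.deg (M * p) r : ℤ), deg_ne_zero (M * p) r, fun P hP n => ?_⟩
  have : NeZero (p ^ n) := ⟨pow_ne_zero _ hp.ne_zero⟩
  have h1 := geo_level hO hNs (M * r) p r hp hp2 hpMr hr (Dvd.intro_left M rfl) n P hP
  have e : M * r * p = M * p * r := Nat.mul_right_comm M r p
  rw [e] at h1
  obtain ⟨u, hu, h2⟩ := h1
  refine ⟨u, hu, fun s hs w => ?_⟩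
  have h3 := rel_descend (M * p) r (p ^ n) (twist u s) (fun w' => UT.twist_kills h2 hs w') w
  rw [sum_twist_act] at h3
  exact h3

variable {p : ℕ} {N : ℕ} [NeZero N] {S : Finset ℕ}
  {𝒪 : Type} [CommRing 𝒪] [IsDomain 𝒪] [IsDiscreteValuationRing 𝒪]
  [IsAdicComplete (IsLocalRing.maximalIdeal 𝒪) 𝒪]
  {θ : CuspForm.heckeAlgebra N 2 (↑S : Set ℕ) →+* IsLocalRing.ResidueField 𝒪}
  {T : Type} [CommRing T] [IsLocalRing T] [IsNoetherianRing T]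
  [IsAdicComplete (IsLocalRing.maximalIdeal T) T] [Algebra 𝒪 T] [IsLocalHom (algebraMap 𝒪 T)]
  [Module.Finite 𝒪 T] [Module.Free 𝒪 T]

/-- **S33** from (O) and (N). -/
theorem finalS (hO : OStatement) (hNs : NStatement)
    [Finite (IsLocalRing.ResidueField 𝒪)] [CharZero 𝒪]
    (hp : p.Prime) (hp2 : p ≠ 2) (hp𝒪 : (p : 𝒪) ∈ IsLocalRing.maximalIdeal 𝒪)
    (hN : p ∣ N ∧ ¬ p ^ 2 ∣ N) (hNS : ∀ q : ℕ, q.Prime → q ∣ N → q ∈ S)
    (H : CuspForm.HeckeGaloisRepDatum N (↑S : Set ℕ) 𝒪 θ T)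
    (hres : (GaloisRepAdic.ofResidualGaloisRep H.ρ.residual).IsOrdinaryAt p) :
    H.ρ.IsOrdinaryAt p := by
  obtain ⟨d, hd, hgeo⟩ := geo_d hO hNs N p hp hp2 hN
  exact top_d hp hp𝒪 hN.1 hNS H hres d hd hgeo
    (fun P hP => exists_inertia_nontrivial hp hp2 hp𝒪 hN hNS H P hP)

end Fermat.Agent.S33
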