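import Fermat.Agent.S33.Ext

set_option autoImplicit false

/-!
# S33 / OfNT : `NT → UT` for finite modules  (U2)
-/

namespace Fermat.Agent.S33

variable {G X : Type} [Group G] [AddCommGroup X]

theorem isAug_zero (I : Subgroup G) : IsAug I (0 : G →₀ ℤ) :=
  ⟨fun g hg => by simp at hg, by simp⟩

theorem support_single_mem (I : Subgroup G) {s : G} (hs : s ∈ I) (c : ℤ) :
    ∀ g ∈ (Finsupp.single s c).support, g ∈ I := by
  intro g hg
  have h := Finsupp.support_single_subset hg
  rw [Finset.mem_singleton] at h
  rw [h]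
  exact hs

theorem isAug_single_zconv (I : Subgroup G) {s : G} (hs : s ∈ I) {z : G →₀ ℤ} (hz : IsAug I z) :
    IsAug I (zconv (Finsupp.single s 1) z) := by
  refine ⟨support_zconv I (support_single_mem I hs 1) hz.1, ?_⟩
  have : zeps (zconv (Finsupp.single s 1) z) = 0 := by
    rw [zeps_zconv]
    have h1 : zeps z = 0 := hz.2
    rw [h1, mul_zero]
  exact this

theorem isAug_single_sub (I : Subgroup G) {s : G} (hs : s ∈ I) :
    IsAug I (Finsupp.single s 1 + -Finsupp.single 1 1 : G →₀ ℤ) := by
  classical
  refine ⟨fun g hg => ?_, ?_⟩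
  · rcases Finset.mem_union.1 (Finsupp.support_add hg) with h | h
    · exact support_single_mem I hs 1 g h
    · rw [Finsupp.support_neg] at h
      exact support_single_mem I I.one_mem 1 g h
  · have : zeps (Finsupp.single s 1 + -Finsupp.single 1 1 : G →₀ ℤ) = 0 := by
      rw [map_add, map_neg, zeps_single, zeps_single, add_neg_cancel]
    exact this

/-- `𝔞 a`. -/
def augOrbit (I : Subgroup G) (act : G →* AddMonoid.End X) (a : X) : AddSubgroup X where
  carrier := {y | ∃ z, IsAug I z ∧ zact act a z = y}
  zero_mem' := ⟨0, isAug_zero I, map_zero _⟩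
  add_mem' := by
    rintro _ _ ⟨z, hz, rfl⟩ ⟨z', hz', rfl⟩
    exact ⟨z + z', hz.add hz', map_add _ _ _⟩
  neg_mem' := by
    rintro _ ⟨z, hz, rfl⟩
    exact ⟨-z, hz.neg, map_neg _ _⟩

theorem exists_aug_fix {I : Subgroup G} {act : G →* AddMonoid.End X} {K : AddSubgroup X}
    (hK : Stab I act K) (h : NT I act K) {a : X} (ha : a ∈ K) :
    ∃ u, IsAug I u ∧ zact act a u = a := by
  have hstab : Stab I act (augOrbit I act a) := by
    rintro s hs _ ⟨z, hz, rfl⟩
    refine ⟨zconv (Finsupp.single s 1) z, isAug_single_zconv I hs hz, ?_⟩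
    rw [zact_zconv, zact_single, one_smul]
  have hle : augOrbit I act a ≤ K := by
    rintro _ ⟨z, hz, rfl⟩
    exact zact_mem hK hz.1 ha
  have hsub : ∀ s ∈ I, act s a - a ∈ augOrbit I act a := by
    intro s hs
    refine ⟨_, isAug_single_sub I hs, ?_⟩
    rw [map_add, map_neg, zact_single, zact_single, one_smul, one_smul, map_one, sub_eq_add_neg]
    rfl
  have key := h (augOrbit I act a ⊔ AddSubgroup.zmultiples a) (augOrbit I act a) le_sup_left
    (sup_le hle (by rw [AddSubgroup.zmultiples_le]; exact ha)) hstab (by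
      intro s hs x hx
      obtain ⟨y, hy, w, hw, rfl⟩ := AddSubgroup.mem_sup.1 hx
      obtain ⟨n, rfl⟩ := AddSubgroup.mem_zmultiples_iff.1 hw
      have e : act s (y + n • a) - (y + n • a) = (act s y - y) + n • (act s a - a) := by
        rw [map_add, map_zsmul, smul_sub]
        abel
      rw [e]
      exact (augOrbit I act a).add_mem ((augOrbit I act a).sub_mem (hstab s hs y hy) hy)
        ((augOrbit I act a).zsmul_mem (hsub s hs) n))
  exact key (AddSubgroup.mem_sup_right (AddSubgroup.mem_zmultiples a))

/-- **(U2)**. -/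
theorem UT.of_nt [Finite X] {I : Subgroup G} {act : G →* AddMonoid.End X} {K : AddSubgroup X}
    (hK : Stab I act K) (h : NT I act K) : UT I act K := by
  classical
  have main : ∀ s : Finset X, (∀ a ∈ s, a ∈ K) →
      ∃ u, IsAug I u ∧ ∀ a ∈ s, zact act a u = a := by
    intro s
    induction s using Finset.induction_on with
    | empty => exact fun _ => ⟨0, isAug_zero I, fun a ha => absurd ha (Finset.notMem_empty a)⟩
    | insert a s _ ih =>
      intro hs
      obtain ⟨u, hu, h1⟩ := ih fun b hb => hs b (Finset.mem_insert_of_mem hb)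
      have haK : a ∈ K := hs a (Finset.mem_insert_self a s)
      have ha' : a - zact act a u ∈ K := K.sub_mem haK (zact_mem hK hu.1 haK)
      obtain ⟨u', hu', h2⟩ := exists_aug_fix hK h ha'
      refine ⟨u + u' + -(zconv u' u), (hu.add hu').add (hu'.zconv hu).neg, fun b hb => ?_⟩
      rw [map_add, map_add, map_neg, zact_zconv]
      rcases Finset.mem_insert.1 hb with rfl | hb
      · rw [zact_sub_vec] at h2
        have h3 : zact act b u' = b - zact act b u + zact act (zact act b u) u' := by
          rw [← h2]; abel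
        rw [h3]
        abel
      · rw [h1 b hb]
        abel
  cases nonempty_fintype X
  obtain ⟨u, hu, h1⟩ := main (Finset.univ.filter (· ∈ K)) (fun a ha => (Finset.mem_filter.1 ha).2)
  exact ⟨u, hu, fun x hx => h1 x (Finset.mem_filter.2 ⟨Finset.mem_univ x, hx⟩)⟩

end Fermat.Agent.S33
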