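import Fermat.Agent.S33.TopD
import Fermat.Agent.S33.OfNT
import Fermat.Agent.S33.Br
import Fermat.Agent.S33.E
import Fermat.Agent.S33.LevelU
import Fermat.Agent.NEW.Defs
import Fermat.Agent.S17.WMW.Open

set_option autoImplicit false

/-!
# S33 / Geo : the assembly  (O) + (B) + (Br) + (N) ⟹ S33
-/

namespace Fermat.Agent.S33

open Fermat.Agent.GES Fermat.Agent.NEW
open Fermat.Agent.S24 (Kb)

/-- the abstract assembly. -/
theorem geo_abs {G W W' : Type} [Group G] [AddCommGroup W] [AddCommGroup W'] (I : Subgroup G)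
    (act : G →* AddMonoid.End W) (act' : G →* AddMonoid.End W') (β1 β2 : W →+ W')
    (hβ1 : ∀ g x, β1 (act g x) = act' g (β1 x)) (hβ2 : ∀ g x, β2 (act g x) = act' g (β2 x))
    (B : AddSubgroup W) (hB : Stab I act B) (haug : aug I act ≤ B)
    (hO : UT I act' (aug I act')) (m : ℕ) (hm : ∀ x : W, m • x = 0) {s0 : G} (hs0 : s0 ∈ I)
    (e0 c : ℤ) (hc : (m : ℤ) ∣ c * (e0 - 1) - 1)
    (hN : ∀ x ∈ B, β1 x = 0 → β2 x = 0 → act s0 x = e0 • x) : UT I act (aug I act) := by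
  have hmap : ∀ (β : W →+ W'), (∀ g x, β (act g x) = act' g (β x)) →
      ∀ x ∈ aug I act, β x ∈ aug I act' := by
    intro β hβ x hx
    induction hx using AddSubgroup.closure_induction with
    | mem y hy =>
      obtain ⟨s, hs, x, rfl⟩ := hy
      rw [map_sub, hβ]
      exact sub_mem_aug act' hs _
    | zero => rw [map_zero]; exact (aug I act').zero_mem
    | add x y _ _ hx hy => rw [map_add]; exact (aug I act').add_mem hx hy
    | neg x _ hx => rw [map_neg]; exact (aug I act').neg_mem hx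
  have hst : Stab I act (aug I act) := stab_aug I act
  refine UT.of_ext β1 hβ1 hst (hmap β1 hβ1) hO ?_
  have hst1 : Stab I act (aug I act ⊓ β1.ker) := by
    intro s hs x hx
    refine ⟨hst s hs x hx.1, ?_⟩
    show act s x ∈ β1.ker
    rw [AddMonoidHom.mem_ker, hβ1, (AddMonoidHom.mem_ker.1 hx.2), map_zero]
  refine UT.of_ext β2 hβ2 hst1 (fun x hx => hmap β2 hβ2 x hx.1) hO ?_
  refine UT.of_scalar m (fun x _ => hm x) hs0 e0 c hc ?_
  intro x hx
  exact hN x (haug hx.1.1) (AddMonoidHom.mem_ker.1 hx.1.2) (AddMonoidHom.mem_ker.1 hx.2)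

/-- **output of chapter (O)**. -/
def OStatement : Prop :=
  ∀ (M p : ℕ) [NeZero M], p.Prime → p ≠ 2 → ¬ p ∣ M → ∀ (n : ℕ) (P : ValuationSubring Kb),
    P.LiesOverPrime p →
    NT (P.inertiaSubgroupIn ℚ) (actV M (p ^ n)) (aug (P.inertiaSubgroupIn ℚ) (actV M (p ^ n)))

/-- **output of chapter (N)** (at a level `M * p` with the auxiliary prime `r ∣ M`). -/
def NStatement : Prop :=
  ∀ (M p r : ℕ) [NeZero M] [NeZero p] (n : ℕ) [NeZero (p ^ n)], p.Prime → p ≠ 2 → ¬ p ∣ M →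
    ((p ≠ 3 ∧ r = 3) ∨ (p = 3 ∧ r = 2)) → r ∣ M → ∀ (P : ValuationSubring Kb),
    P.LiesOverPrime p → ∀ t ∈ P.inertiaSubgroupIn ℚ, ∀ a : ℕ,
    (∀ μ : Kb, μ ^ p ^ n = 1 → t μ = μ ^ a) → ∀ x ∈ Br P M p (p ^ n),
    alphaV M p (p ^ n) x = 0 → betaV M p (p ^ n) x = 0 → rhoV (M * p) (p ^ n) t x = a • x

/-- `UT` at a level `M * p` with `r ∣ M`. -/
theorem geo_level (hO : OStatement) (hNs : NStatement) (M p r : ℕ) [NeZero M] (hp : p.Prime)
    (hp2 : p ≠ 2) (hpM : ¬ p ∣ M) (hr : (p ≠ 3 ∧ r = 3) ∨ (p = 3 ∧ r = 2)) (hrM : r ∣ M)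
    (n : ℕ) (P : ValuationSubring Kb) (hP : P.LiesOverPrime p) :
    UT (P.inertiaSubgroupIn ℚ) (actV (M * p) (p ^ n))
      (aug (P.inertiaSubgroupIn ℚ) (actV (M * p) (p ^ n))) := by
  have : NeZero p := ⟨hp.ne_zero⟩
  have : NeZero (p ^ n) := ⟨pow_ne_zero _ hp.ne_zero⟩
  have hc : Nat.Coprime p M := (Nat.Prime.coprime_iff_not_dvd hp).2 hpM
  have : Finite (VN M (p ^ n)) := Fermat.Agent.S17.WMW.finite_VN M (p ^ n)
  obtain ⟨s0, hs0, a, c, ha, hac⟩ := exists_s0_cyclo hp hp2 P hP n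
  refine geo_abs (P.inertiaSubgroupIn ℚ) (actV (M * p) (p ^ n)) (actV M (p ^ n))
    (alphaV M p (p ^ n)) (betaV M p (p ^ n)) (fun g x => alphaV_rhoV M p (p ^ n) g x)
    (fun g x => betaV_rhoV M p (p ^ n) g x) (Br P M p (p ^ n))
    (fun s hs x hx => Br_stable hc (mem_decomposition_of_mem_inertia P hs) hx)
    ((AddSubgroup.closure_le _).2 (by
      rintro _ ⟨s, hs, x, rfl⟩
      exact sub_mem_Br hc hp hP hs x))
    (UT.of_nt (stab_aug _ _) (hO M p hp hp2 hpM n P hP)) (p ^ n)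
    (fun x => Vm.nsmul_eq_zero x) hs0 (a : ℤ) c hac ?_
  intro x hx h1 h2
  rw [actV_apply, hNs M p r n hp hp2 hpM hr hrM P hP s0 hs0 a ha x hx h1 h2, natCast_zsmul]

end Fermat.Agent.S33
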