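import Fermat.Agent.S33.UT

/-!
# S33 / NT : calculus of `NT` (no trivial subquotient), for the definitions of `S33/UT.lean`
-/

set_option autoImplicit false

namespace Fermat.Agent.S33

variable {G : Type} [Group G]

section basic

variable {X : Type} [AddCommGroup X] (I : Subgroup G) (act : G →* AddMonoid.End X)

theorem sub_mem_aug {s : G} (hs : s ∈ I) (x : X) : act s x - x ∈ aug I act :=
  AddSubgroup.subset_closure ⟨s, hs, x, rfl⟩

theorem aug_le {K : AddSubgroup X} (h : ∀ s ∈ I, ∀ x : X, act s x - x ∈ K) : aug I act ≤ K := by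
  rw [aug, AddSubgroup.closure_le]
  rintro y ⟨s, hs, x, rfl⟩
  exact h s hs x

theorem stab_of_aug_le {K : AddSubgroup X} (h : aug I act ≤ K) : Stab I act K := by
  intro s hs x hx
  have h1 : act s x = (act s x - x) + x := by abel
  rw [h1]
  exact K.add_mem (h (sub_mem_aug I act hs x)) hx

theorem stab_aug : Stab I act (aug I act) := stab_of_aug_le I act le_rfl

theorem stab_of_triv {K1 K2 : AddSubgroup X} (h21 : K2 ≤ K1)
    (ht : ∀ s ∈ I, ∀ x ∈ K1, act s x - x ∈ K2) : Stab I act K1 := by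
  intro s hs x hx
  have h1 : act s x = (act s x - x) + x := by abel
  rw [h1]
  exact K1.add_mem (h21 (ht s hs x hx)) hx

theorem NT.mono {K K' : AddSubgroup X} (h : NT I act K) (hle : K' ≤ K) : NT I act K' :=
  fun K1 K2 h21 h1 s2 ht => h K1 K2 h21 (h1.trans hle) s2 ht

theorem NT_bot : NT I act (⊥ : AddSubgroup X) := by
  intro K1 K2 _ h1 _ _ x hx
  have : x = 0 := by simpa using h1 hx
  rw [this]; exact K2.zero_mem

/-- scalar case: `act s0 x = c • x` on `K` and `d (c - 1) = 1` on `K`. -/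
theorem NT_of_scalar {K : AddSubgroup X} {s0 : G} (hs0 : s0 ∈ I) (c d : ℤ)
    (hc : ∀ x ∈ K, act s0 x = c • x) (hd : ∀ x ∈ K, (d * (c - 1)) • x = x) : NT I act K := by
  intro K1 K2 _ h1 _ ht x hx
  have h2 := ht s0 hs0 x hx
  rw [hc x (h1 hx)] at h2
  have h3 : c • x - x = (c - 1) • x := by rw [sub_smul, one_smul]
  rw [h3] at h2
  have h4 := K2.zsmul_mem h2 d
  rw [smul_smul, hd x (h1 hx)] at h4
  exact h4

end basic

section maps

variable {X Y : Type} [AddCommGroup X] [AddCommGroup Y] (I : Subgroup G)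
  (actX : G →* AddMonoid.End X) (actY : G →* AddMonoid.End Y)

theorem Stab.map {φ : X →+ Y} (hφ : ∀ s ∈ I, ∀ x, φ (actX s x) = actY s (φ x)) {K : AddSubgroup X}
    (hK : Stab I actX K) : Stab I actY (K.map φ) := by
  rintro s hs _ ⟨x, hx, rfl⟩
  exact ⟨actX s x, hK s hs x hx, hφ s hs x⟩

theorem Stab.comap {φ : X →+ Y} (hφ : ∀ s ∈ I, ∀ x, φ (actX s x) = actY s (φ x)) {K : AddSubgroup Y}
    (hK : Stab I actY K) : Stab I actX (K.comap φ) := by
  intro s hs x hx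
  show φ (actX s x) ∈ K
  rw [hφ s hs x]
  exact hK s hs _ hx

theorem Stab.inf {K K' : AddSubgroup X} (h : Stab I actX K) (h' : Stab I actX K') :
    Stab I actX (K ⊓ K') :=
  fun s hs x hx => ⟨h s hs x hx.1, h' s hs x hx.2⟩

/-- **extensions**: `0 → K ⊓ ker φ → K → K_Y`. -/
theorem NT.of_exact (φ : X →+ Y) (hφ : ∀ s ∈ I, ∀ x, φ (actX s x) = actY s (φ x))
    {K : AddSubgroup X} {KY : AddSubgroup Y} (hKY : NT I actY KY) (hmap : ∀ x ∈ K, φ x ∈ KY)
    (hker : NT I actX (K ⊓ φ.ker)) : NT I actX K := by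
  intro K1 K2 h21 h1 s2 ht
  have hA : K1.map φ ≤ K2.map φ := by
    refine hKY (K1.map φ) (K2.map φ) (AddSubgroup.map_mono h21) ?_ (s2.map I actX actY hφ) ?_
    · rintro _ ⟨x, hx, rfl⟩
      exact hmap x (h1 hx)
    · rintro s hs _ ⟨x, hx, rfl⟩
      refine ⟨actX s x - x, ht s hs x hx, ?_⟩
      rw [map_sub, hφ s hs x]
  have hker' : Stab I actX φ.ker := by
    intro s hs x hx
    rw [AddMonoidHom.mem_ker] at hx ⊢
    rw [hφ s hs x, hx, map_zero]
  have hB : K1 ⊓ φ.ker ≤ K2 ⊓ φ.ker := by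
    refine hker (K1 ⊓ φ.ker) (K2 ⊓ φ.ker) (inf_le_inf_right _ h21) (inf_le_inf_right _ h1)
      (s2.inf I actX hker') ?_
    intro s hs x hx
    exact ⟨ht s hs x hx.1, φ.ker.sub_mem (hker' s hs x hx.2) hx.2⟩
  intro x hx
  obtain ⟨x2, hx2, hxx⟩ := hA ⟨x, hx, rfl⟩
  have h3 : x - x2 ∈ K1 ⊓ φ.ker := by
    refine ⟨K1.sub_mem hx (h21 hx2), ?_⟩
    show x - x2 ∈ φ.ker
    rw [AddMonoidHom.mem_ker, map_sub, hxx, sub_self]
  have h4 := (hB h3).1
  have h5 : x = (x - x2) + x2 := by abel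
  rw [h5]
  exact K2.add_mem h4 hx2

/-- **sub-objects**. -/
theorem NT.of_injective (φ : X →+ Y) (hφ : ∀ s ∈ I, ∀ x, φ (actX s x) = actY s (φ x))
    (hinj : Function.Injective φ) {K : AddSubgroup X} {KY : AddSubgroup Y} (hKY : NT I actY KY)
    (hmap : ∀ x ∈ K, φ x ∈ KY) : NT I actX K := by
  refine NT.of_exact I actX actY φ hφ hKY hmap ?_
  have : K ⊓ φ.ker = ⊥ := by
    rw [(AddMonoidHom.ker_eq_bot_iff φ).2 hinj, inf_bot_eq]
  rw [this]
  exact NT_bot I actX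

/-- **quotients**. -/
theorem NT.map (φ : X →+ Y) (hφ : ∀ s ∈ I, ∀ x, φ (actX s x) = actY s (φ x))
    {K : AddSubgroup X} (hst : Stab I actX K) (hK : NT I actX K) : NT I actY (K.map φ) := by
  intro L1 L2 h21 h1 s2 ht
  have h := hK (K ⊓ L1.comap φ) (K ⊓ L2.comap φ) (inf_le_inf_left _ (AddSubgroup.comap_mono h21))
    inf_le_left (hst.inf I actX (s2.comap I actX actY hφ))
    (by
      intro s hs x hx
      refine ⟨K.sub_mem (hst s hs x hx.1) hx.1, ?_⟩
      show φ (actX s x - x) ∈ L2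
      rw [map_sub, hφ s hs x]
      exact ht s hs _ hx.2)
  intro y hy
  obtain ⟨x, hx, rfl⟩ := h1 hy
  exact (h ⟨hx, hy⟩).2

theorem map_aug_le (φ : X →+ Y) (hφ : ∀ s ∈ I, ∀ x, φ (actX s x) = actY s (φ x)) :
    (aug I actX).map φ ≤ aug I actY := by
  rw [AddSubgroup.map_le_iff_le_comap]
  apply aug_le
  intro s hs x
  show φ (actX s x - x) ∈ aug I actY
  rw [map_sub, hφ s hs x]
  exact sub_mem_aug I actY hs _

theorem aug_le_map_of_surjective (φ : X →+ Y) (hφ : ∀ s ∈ I, ∀ x, φ (actX s x) = actY s (φ x))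
    (hsurj : Function.Surjective φ) : aug I actY ≤ (aug I actX).map φ := by
  apply aug_le
  intro s hs y
  obtain ⟨x, rfl⟩ := hsurj y
  exact ⟨actX s x - x, sub_mem_aug I actX hs x, by rw [map_sub, hφ s hs x]⟩

end maps

section span

variable {X Y Z : Type} [AddCommGroup X] [AddCommGroup Y] [AddCommGroup Z] (I : Subgroup G)
  (actX : G →* AddMonoid.End X) (actY : G →* AddMonoid.End Y) (actZ : G →* AddMonoid.End Z)

/-- **roof**: `Y ←Φ- Z -Ψ→ X`, `ker Φ ≤ ker Ψ`, `Ψ` onto. -/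
theorem NT_aug_of_roof (Φ : Z →+ Y) (Ψ : Z →+ X)
    (hΦ : ∀ s ∈ I, ∀ z, Φ (actZ s z) = actY s (Φ z))
    (hΨ : ∀ s ∈ I, ∀ z, Ψ (actZ s z) = actX s (Ψ z))
    (hker : ∀ z, Φ z = 0 → Ψ z = 0) (hsurj : Function.Surjective Ψ)
    (hY : NT I actY (aug I actY)) : NT I actX (aug I actX) := by
  intro L1 L2 h21 h1 s2 ht
  have sZ : Stab I actZ (aug I actZ) := stab_aug I actZ
  have st2 : Stab I actZ (aug I actZ ⊓ L2.comap Ψ) := sZ.inf I actZ (s2.comap I actZ actX hΨ)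
  have h := hY ((aug I actZ ⊓ L1.comap Ψ).map Φ) ((aug I actZ ⊓ L2.comap Ψ).map Φ)
    (AddSubgroup.map_mono (inf_le_inf_left _ (AddSubgroup.comap_mono h21)))
    ((AddSubgroup.map_mono inf_le_left).trans (map_aug_le I actZ actY Φ hΦ))
    (st2.map I actZ actY hΦ)
    (by
      rintro s hs _ ⟨z, hz, rfl⟩
      refine ⟨actZ s z - z, ⟨sub_mem_aug I actZ hs z, ?_⟩, by rw [map_sub, hΦ s hs z]⟩
      show Ψ (actZ s z - z) ∈ L2
      rw [map_sub, hΨ s hs z]
      exact ht s hs _ hz.2)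
  intro l hl
  obtain ⟨z, hz, rfl⟩ := aug_le_map_of_surjective I actZ actX Ψ hΨ hsurj (h1 hl)
  obtain ⟨z2, hz2, hzz⟩ := h ⟨z, ⟨hz, hl⟩, rfl⟩
  have h3 : Ψ (z - z2) = 0 := hker _ (by rw [map_sub, hzz, sub_self])
  rw [map_sub, sub_eq_zero] at h3
  rw [h3]
  exact hz2.2

end span

end Fermat.Agent.S33
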