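import Mathlib

set_option autoImplicit false

/-!
# S33 / UT : the formal calculus (T1 + T2 of the sprint)

`G` a group, `I ≤ G`, `X` an abelian group with an action `act : G →* AddMonoid.End X`.

* `NT I act K` : the subgroup `K` has no non-zero subquotient with trivial action of `I`.
* `UT I act K` : some `u` in the augmentation ideal of `ℤ[I]` acts as the identity on `K`.

`UT → NT` always; `NT → UT` for finite `I`-stable `K`.  `UT` is an ANNIHILATOR statement, so it
transfers for free (`UT.transfer`), and it is stable under extensions (`UT.of_ext`).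
-/

namespace Fermat.Agent.S33

variable {G X X' : Type} [Group G] [AddCommGroup X] [AddCommGroup X']

/-- `u` lies in the augmentation ideal of `ℤ[I]`. -/
def IsAug (I : Subgroup G) (u : G →₀ ℤ) : Prop :=
  (∀ g ∈ u.support, g ∈ I) ∧ (u.sum fun _ c => c) = 0

/-- `K` is stable under `I`. -/
def Stab (I : Subgroup G) (act : G →* AddMonoid.End X) (K : AddSubgroup X) : Prop :=
  ∀ s ∈ I, ∀ x ∈ K, act s x ∈ K

/-- no trivial subquotient. -/
def NT (I : Subgroup G) (act : G →* AddMonoid.End X) (K : AddSubgroup X) : Prop :=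
  ∀ K1 K2 : AddSubgroup X, K2 ≤ K1 → K1 ≤ K → Stab I act K2 →
    (∀ s ∈ I, ∀ x ∈ K1, act s x - x ∈ K2) → K1 ≤ K2

/-- some element of the augmentation ideal of `ℤ[I]` is the identity on `K`. -/
def UT (I : Subgroup G) (act : G →* AddMonoid.End X) (K : AddSubgroup X) : Prop :=
  ∃ u : G →₀ ℤ, IsAug I u ∧ ∀ x ∈ K, (u.sum fun g c => c • act g x) = x

/-- `I.X`, the subgroup generated by the `(s - 1) x`. -/
def aug (I : Subgroup G) (act : G →* AddMonoid.End X) : AddSubgroup X :=
  AddSubgroup.closure {y | ∃ s ∈ I, ∃ x, y = act s x - x}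

end Fermat.Agent.S33
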