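import Fermat.Agent.S33.OrdAbs

set_option autoImplicit false

/-!
# S33 / OrdAbsD : the abstract end game, with a non-zero-divisor `δ`

`L` = the submodule generated by the `(ρ(s) - 1) v`; if for every `m` there is an endomorphism `U`
with `U L ⊆ 𝔪 ^ m V` and `(U - 1) V ⊆ L`, if `L` is residually contained in a line and is not
contained in `𝔪 V`, then `L` is a free direct summand of rank one.
-/

namespace Fermat.Agent.S33

open IsLocalRing TensorProduct

theorem ord_abs_d {T : Type} [CommRing T] [IsLocalRing T] [IsNoetherianRing T]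
    {V : Type} [AddCommGroup V] [Module T V] [Module.Free T V] [Module.Finite T V]
    (L : Submodule T V)
    (bb : Module.Basis (Fin 2) (ResidueField T) (ResidueField T ⊗[T] V))
    (hL : ∀ y ∈ L, (1 : ResidueField T) ⊗ₜ[T] y ∈ Submodule.span (ResidueField T) {bb 0})
    (e0 : V) (he0 : e0 ∈ L) (he0' : (1 : ResidueField T) ⊗ₜ[T] e0 ≠ 0)
    (δ : T) (hδ : ∀ t : T, δ * t = 0 → t = 0)
    (hU : ∀ m : ℕ, ∃ U : Module.End T V,
      (∀ y ∈ L, δ • U y ∈ (maximalIdeal T ^ m) • (⊤ : Submodule T V)) ∧ ∀ v, U v - v ∈ L) :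
    ∃ b : Module.Basis (Fin 2) T V, L = Submodule.span T {b 0} := by
  classical
  -- a lift of `bb 1`
  obtain ⟨e1, he1⟩ : ∃ e1 : V, (1 : ResidueField T) ⊗ₜ[T] e1 = bb 1 :=
    TensorProduct.mk_surjective T V (ResidueField T) IsLocalRing.residue_surjective (bb 1)
  obtain ⟨c0, hc0⟩ := Submodule.mem_span_singleton.1 (hL e0 he0)
  have hc0ne : c0 ≠ 0 := by
    rintro rfl
    rw [zero_smul] at hc0
    exact he0' hc0.symm
  let w : Fin 2 → ResidueField T := ![c0, 1]
  have hw : ∀ i, IsUnit (w i) := by
    intro i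
    fin_cases i
    · exact isUnit_iff_ne_zero.2 hc0ne
    · exact isUnit_one
  let bb' := bb.isUnitSMul hw
  let v : Fin 2 → V := ![e0, e1]
  have hv : TensorProduct.mk T (ResidueField T) V 1 ∘ v = bb' := by
    funext i
    fin_cases i
    · show (1 : ResidueField T) ⊗ₜ[T] e0 = bb' 0
      rw [Module.Basis.isUnitSMul_apply, ← hc0]
      rfl
    · show (1 : ResidueField T) ⊗ₜ[T] e1 = bb' 1
      rw [Module.Basis.isUnitSMul_apply, he1]
      show bb 1 = (1 : ResidueField T) • bb 1
      rw [one_smul]
  have : Module.FinitePresentation T V := Module.finitePresentation_of_projective T V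
  obtain ⟨b, hb⟩ := Module.exists_basis_of_basis_baseChange v
    (by rw [hv]; exact bb'.linearIndependent) (by rw [hv]; exact bb'.span_eq)
    (Module.Flat.rTensor_preserves_injective_linearMap (maximalIdeal T).subtype
      Subtype.val_injective)
  have hb0 : b 0 = e0 := hb 0
  have hb1 : b 1 = e1 := hb 1
  refine ⟨b, le_antisymm ?_ ?_⟩
  swap
  · rw [Submodule.span_singleton_le_iff_mem, hb0]
    exact he0
  -- the residual second coordinate
  have hres : ∀ x : V, (1 : ResidueField T) ⊗ₜ[T] x =
      (residue T (b.coord 0 x) * c0) • bb 0 + residue T (b.coord 1 x) • bb 1 := by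
    intro x
    conv_lhs => rw [← b.sum_repr x]
    rw [Fin.sum_univ_two, hb0, hb1, TensorProduct.tmul_add, TensorProduct.tmul_smul,
      TensorProduct.tmul_smul, ← hc0, he1, mul_smul]
    rfl
  have hcoordL : ∀ y ∈ L, b.coord 1 y ∈ maximalIdeal T := by
    intro y hy
    obtain ⟨c, hc⟩ := Submodule.mem_span_singleton.1 (hL y hy)
    have h1 := hres y
    rw [← hc] at h1
    have h2 := congrArg (fun z => bb.repr z 1) h1
    simp only [map_add, map_smul, Module.Basis.repr_self, Finsupp.add_apply, Finsupp.smul_apply,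
      Finsupp.single_apply, smul_eq_mul] at h2
    simp at h2
    exact (residue_eq_zero_iff _).1 h2.symm
  intro y hy
  have hβ : b.coord 1 y = 0 := by
    have hmem : ∀ m : ℕ, δ * b.coord 1 y ∈ maximalIdeal T ^ m := by
      intro m
      obtain ⟨U, hU1, hU2⟩ := hU m
      have h1 : y = b.coord 0 y • e0 + b.coord 1 y • e1 := by
        conv_lhs => rw [← b.sum_repr y]
        rw [Fin.sum_univ_two, hb0, hb1]
        rfl
      have h2 : δ * b.coord 1 (U y) ∈ maximalIdeal T ^ m := by
        have := apply_mem_of_mem_smul_top _ (b.coord 1) (hU1 y hy)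
        rwa [map_smul, smul_eq_mul] at this
      have h3 : δ * b.coord 1 (U e0) ∈ maximalIdeal T ^ m := by
        have := apply_mem_of_mem_smul_top _ (b.coord 1) (hU1 e0 he0)
        rwa [map_smul, smul_eq_mul] at this
      have h4 : U y = b.coord 0 y • U e0 + b.coord 1 y • U e1 := by
        conv_lhs => rw [h1]
        rw [map_add, map_smul, map_smul]
      have h5 : b.coord 1 (U e1) = 1 + b.coord 1 (U e1 - e1) := by
        rw [map_sub, ← hb1]
        simp [Module.Basis.coord_apply]
      have h6 : IsUnit (b.coord 1 (U e1)) := by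
        rw [h5]
        by_contra hcon
        have h7 : (1 + b.coord 1 (U e1 - e1)) ∈ maximalIdeal T := (mem_maximalIdeal _).2 hcon
        have h8 := (maximalIdeal T).sub_mem h7 (hcoordL _ (hU2 e1))
        rw [add_sub_cancel_right] at h8
        exact (mem_maximalIdeal _).1 h8 isUnit_one
      rw [h4, map_add, map_smul, map_smul, smul_eq_mul, smul_eq_mul] at h2
      have h9 : δ * b.coord 1 y * b.coord 1 (U e1) ∈ maximalIdeal T ^ m := by
        have := (maximalIdeal T ^ m).sub_mem h2 ((maximalIdeal T ^ m).mul_mem_left (b.coord 0 y) h3)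
        have e : δ * (b.coord 0 y * b.coord 1 (U e0) + b.coord 1 y * b.coord 1 (U e1)) -
            b.coord 0 y * (δ * b.coord 1 (U e0)) = δ * b.coord 1 y * b.coord 1 (U e1) := by ring
        rwa [e] at this
      obtain ⟨un, hun⟩ := h6
      have h10 := (maximalIdeal T ^ m).mul_mem_right (↑un⁻¹ : T) h9
      rwa [← hun, mul_assoc, Units.mul_inv, mul_one] at h10
    have hk : (⨅ m : ℕ, maximalIdeal T ^ m) = ⊥ :=
      Ideal.iInf_pow_eq_bot_of_isLocalRing _ (Ideal.IsPrime.ne_top inferInstance)
    have : δ * b.coord 1 y ∈ (⨅ m : ℕ, maximalIdeal T ^ m) := (Submodule.mem_iInf _).2 hmem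
    rw [hk] at this
    exact hδ _ this
  rw [Submodule.mem_span_singleton]
  refine ⟨b.coord 0 y, ?_⟩
  conv_rhs => rw [← b.sum_repr y]
  rw [Fin.sum_univ_two]
  have : b.repr y 1 = 0 := hβ
  rw [this, zero_smul, add_zero]
  rfl

end Fermat.Agent.S33
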