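import Fermat.Agent.S33.Abs
import Fermat.Agent.S33.Calc
import Fermat.Agent.S32.Top

set_option autoImplicit false

/-!
# S33 / Top : from the geometric input `UT (I.W_n)` and (E) to the frozen statement
-/

namespace Fermat.Agent.S33

open Fermat.Agent.GES (GQ)

variable {p : ℕ} {N : ℕ} [NeZero N] {S : Finset ℕ}
  {𝒪 : Type} [CommRing 𝒪] [IsDomain 𝒪] [IsDiscreteValuationRing 𝒪]
  [IsAdicComplete (IsLocalRing.maximalIdeal 𝒪) 𝒪]
  {θ : CuspForm.heckeAlgebra N 2 (↑S : Set ℕ) →+* IsLocalRing.ResidueField 𝒪}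
  {T : Type} [CommRing T] [IsLocalRing T] [IsNoetherianRing T]
  [IsAdicComplete (IsLocalRing.maximalIdeal T) T] [Algebra 𝒪 T] [IsLocalHom (algebraMap 𝒪 T)]
  [Module.Finite 𝒪 T] [Module.Free 𝒪 T]

theorem top [Finite (IsLocalRing.ResidueField 𝒪)] [CharZero 𝒪]
    (hp : p.Prime) (hp𝒪 : (p : 𝒪) ∈ IsLocalRing.maximalIdeal 𝒪) (hN : p ∣ N)
    (hNS : ∀ q : ℕ, q.Prime → q ∣ N → q ∈ S)
    (H : CuspForm.HeckeGaloisRepDatum N (↑S : Set ℕ) 𝒪 θ T)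
    (hres : (GaloisRepAdic.ofResidualGaloisRep H.ρ.residual).IsOrdinaryAt p)
    (hgeo : ∀ P : ValuationSubring (AlgebraicClosure ℚ), P.LiesOverPrime p → ∀ n : ℕ,
      UT (P.inertiaSubgroupIn ℚ) (GES.actV N (p ^ n))
        (aug (P.inertiaSubgroupIn ℚ) (GES.actV N (p ^ n))))
    (hE : ∀ P : ValuationSubring (AlgebraicClosure ℚ), P.LiesOverPrime p →
      ∃ s ∈ P.inertiaSubgroupIn ℚ, ∃ v : H.ρ.V,
        H.ρ.ρ s v - v ∉ (IsLocalRing.maximalIdeal T) • (⊤ : Submodule T H.ρ.V)) :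
    H.ρ.IsOrdinaryAt p := by
  intro P hP
  refine ordinary_abs H.ρ P ?_ (hE P hP) (hres P hP)
  intro j
  obtain ⟨k, hk⟩ := S32.exists_kill hp hp𝒪 (hNS p hp hN) hNS H
  obtain ⟨u, hu, h1⟩ := hgeo P hP (j + k)
  refine ⟨u, hu, fun s hs v => ?_⟩
  have h2 := hk j (twist u s) (fun w => UT.twist_kills h1 hs w) v
  have h3 : ((twist u s).sum fun g c => c • H.ρ.ρ g v) =
      (u.sum fun g c => c • H.ρ.ρ g (H.ρ.ρ s v - v)) - (H.ρ.ρ s v - v) :=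
    sum_twist (fun g => (H.ρ.ρ g).toAddMonoidHom) (fun g h x => by rw [map_mul]; rfl)
      (fun x => by rw [map_one]; rfl) u s v
  rw [h3] at h2
  exact h2

end Fermat.Agent.S33
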