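import Fermat.Agent.S33.Top

set_option autoImplicit false

/-!
# S33 / TopD : the top with a fixed non-zero integer factor `d`
(needed because chapter (N) lives at the auxiliary level `N * r`)
-/

namespace Fermat.Agent.S33

open Fermat.Agent.GES (GQ)

theorem int_smul_inj {𝒪 T V : Type} [CommRing 𝒪] [IsDomain 𝒪] [CharZero 𝒪] [CommRing T]
    [Algebra 𝒪 T] [Module.Free 𝒪 T] [AddCommGroup V] [Module T V] [Module.Free T V]
    (d : ℤ) (hd : d ≠ 0) (z : V) (h : d • z = 0) : z = 0 := by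
  classical
  have hT : ∀ t : T, d • t = 0 → t = 0 := by
    intro t ht
    let b := Module.Free.chooseBasis 𝒪 T
    apply b.repr.injective
    ext i
    have h1 := congrArg (fun x => b.repr x i) ht
    simp only [map_zsmul, Finsupp.smul_apply, map_zero, Finsupp.zero_apply] at h1
    rw [zsmul_eq_mul] at h1
    rcases mul_eq_zero.1 h1 with h2 | h2
    · exact absurd (Int.cast_eq_zero.1 h2) hd
    · simpa using h2
  let b := Module.Free.chooseBasis T V
  apply b.repr.injective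
  ext i
  have h1 := congrArg (fun x => b.repr x i) h
  simp only [map_zsmul, Finsupp.smul_apply, map_zero, Finsupp.zero_apply] at h1
  simpa using hT _ h1

/-- Artin-Rees: division by `d`. -/
theorem ar_div {T V : Type} [CommRing T] [IsNoetherianRing T] [AddCommGroup V] [Module T V]
    [Module.Finite T V] (I : Ideal T) (d : ℤ) (hd : ∀ z : V, d • z = 0 → z = 0) (j : ℕ) :
    ∃ J : ℕ, ∀ z : V, d • z ∈ (I ^ J) • (⊤ : Submodule T V) → z ∈ (I ^ j) • (⊤ : Submodule T V) := by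
  let f : V →ₗ[T] V := (d : T) • LinearMap.id
  have hf : ∀ z, f z = d • z := by
    intro z
    simp [f, Int.cast_smul_eq_zsmul]
  obtain ⟨k, hk⟩ := I.exists_pow_inf_eq_pow_smul (LinearMap.range f)
  refine ⟨j + k, fun z hz => ?_⟩
  have h1 : d • z ∈ (I ^ (j + k)) • (⊤ : Submodule T V) ⊓ LinearMap.range f :=
    ⟨hz, ⟨z, hf z⟩⟩
  rw [hk (j + k) (Nat.le_add_left _ _), Nat.add_sub_cancel] at h1
  have h2 : (I ^ j) • ((I ^ k) • (⊤ : Submodule T V) ⊓ LinearMap.range f) ≤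
      ((I ^ j) • (⊤ : Submodule T V)).map f := by
    rw [Submodule.map_smul'', Submodule.map_top]
    exact Submodule.smul_mono le_rfl inf_le_right
  obtain ⟨z', hz', h3⟩ := h2 h1
  rw [hf] at h3
  have h4 : z' = z := by
    have : d • (z' - z) = 0 := by rw [smul_sub, h3, sub_self]
    exact sub_eq_zero.1 (hd _ this)
  rw [← h4]
  exact hz'

variable {p : ℕ} {N : ℕ} [NeZero N] {S : Finset ℕ}
  {𝒪 : Type} [CommRing 𝒪] [IsDomain 𝒪] [IsDiscreteValuationRing 𝒪]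
  [IsAdicComplete (IsLocalRing.maximalIdeal 𝒪) 𝒪]
  {θ : CuspForm.heckeAlgebra N 2 (↑S : Set ℕ) →+* IsLocalRing.ResidueField 𝒪}
  {T : Type} [CommRing T] [IsLocalRing T] [IsNoetherianRing T]
  [IsAdicComplete (IsLocalRing.maximalIdeal T) T] [Algebra 𝒪 T] [IsLocalHom (algebraMap 𝒪 T)]
  [Module.Finite 𝒪 T] [Module.Free 𝒪 T]

/-- the top, with a factor `d ≠ 0`. -/
theorem top_d [Finite (IsLocalRing.ResidueField 𝒪)] [CharZero 𝒪]
    (hp : p.Prime) (hp𝒪 : (p : 𝒪) ∈ IsLocalRing.maximalIdeal 𝒪) (hN : p ∣ N)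
    (hNS : ∀ q : ℕ, q.Prime → q ∣ N → q ∈ S)
    (H : CuspForm.HeckeGaloisRepDatum N (↑S : Set ℕ) 𝒪 θ T)
    (hres : (GaloisRepAdic.ofResidualGaloisRep H.ρ.residual).IsOrdinaryAt p)
    (d : ℤ) (hd : d ≠ 0)
    (hgeo : ∀ P : ValuationSubring (AlgebraicClosure ℚ), P.LiesOverPrime p → ∀ n : ℕ,
      ∃ u : GQ →₀ ℤ, IsAug (P.inertiaSubgroupIn ℚ) u ∧ ∀ s ∈ P.inertiaSubgroupIn ℚ,
        ∀ w : GES.VN N (p ^ n),
          d • ((u.sum fun g c => c • GES.actV N (p ^ n) g (GES.actV N (p ^ n) s w - w)) -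
            (GES.actV N (p ^ n) s w - w)) = 0)
    (hE : ∀ P : ValuationSubring (AlgebraicClosure ℚ), P.LiesOverPrime p →
      ∃ s ∈ P.inertiaSubgroupIn ℚ, ∃ v : H.ρ.V,
        H.ρ.ρ s v - v ∉ (IsLocalRing.maximalIdeal T) • (⊤ : Submodule T H.ρ.V)) :
    H.ρ.IsOrdinaryAt p := by
  intro P hP
  refine ordinary_abs H.ρ P ?_ (hE P hP) (hres P hP)
  intro j
  obtain ⟨J, hJ⟩ := ar_div (V := H.ρ.V) (IsLocalRing.maximalIdeal T) d
    (fun z hz => int_smul_inj (𝒪 := 𝒪) (T := T) d hd z hz) j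
  obtain ⟨k, hk⟩ := S32.exists_kill hp hp𝒪 (hNS p hp hN) hNS H
  obtain ⟨u, hu, h1⟩ := hgeo P hP (J + k)
  refine ⟨u, hu, fun s hs v => hJ _ ?_⟩
  have hsm : ∀ {X : Type} [AddCommGroup X] (φ : GQ → X) (a : GQ →₀ ℤ),
      ((d • a).sum fun g c => c • φ g) = d • (a.sum fun g c => c • φ g) := by
    intro X _ φ a
    rw [Finsupp.sum_smul_index (h := fun g c => c • φ g) (fun g => zero_smul _ _),
      Finsupp.smul_sum]
    refine Finsupp.sum_congr fun g _ => ?_
    rw [mul_smul]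
  have h2 := hk J (d • twist u s) (fun w => by
    rw [hsm (fun g => GES.actV N (p ^ (J + k)) g w), sum_twist_act]
    exact h1 s hs w) v
  have h3 : ((twist u s).sum fun g c => c • H.ρ.ρ g v) =
      (u.sum fun g c => c • H.ρ.ρ g (H.ρ.ρ s v - v)) - (H.ρ.ρ s v - v) :=
    sum_twist (fun g => (H.ρ.ρ g).toAddMonoidHom) (fun g h x => by rw [map_mul]; rfl)
      (fun x => by rw [map_one]; rfl) u s v
  rw [hsm (fun g => H.ρ.ρ g v), h3] at h2
  exact h2

end Fermat.Agent.S33
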