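import Fermat.Agent.S33.OrdAbs
import Fermat.Agent.S32.Top

set_option autoImplicit false

/-!
# S33 / TopU : from the `element form' of NT on the Kummer classes to `IsOrdinaryAt`
-/

namespace Fermat.Agent.S33

open CuspForm Fermat.Agent.S31 Fermat.Agent.S19 IsLocalRing TensorProduct

/-- `u (s - 1)` as an element of the group ring. -/
theorem sum_shift {G M : Type*} [Group G] [AddCommGroup M] (act : G → M → M)
    (hsub : ∀ g x y, act g (x - y) = act g x - act g y)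
    (hmul : ∀ g s x, act (g * s) x = act g (act s x)) (u : G →₀ ℤ) (s : G) (w : M) :
    ((u.mapDomain (fun g => g * s) - u).sum fun g c => c • act g w) =
      u.sum fun g c => c • act g (act s w - w) := by
  rw [Finsupp.sum_sub_index (fun a b₁ b₂ => by rw [sub_smul]),
    Finsupp.sum_mapDomain_index (fun g => by rw [zero_smul]) (fun g c c' => by rw [add_smul]),
    ← Finsupp.sum_sub]
  refine Finsupp.sum_congr fun g _ => ?_
  rw [hmul, hsub, smul_sub]

/-- inertia is normal in the decomposition group. -/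
theorem conj_mem_inertia (P : ValuationSubring Qb) {σ s : GQ}
    (hσ : σ ∈ P.decompositionSubgroup ℚ) (hs : s ∈ P.inertiaSubgroupIn ℚ) :
    σ * s * σ⁻¹ ∈ P.inertiaSubgroupIn ℚ := by
  obtain ⟨s', hs', rfl⟩ := hs
  refine ⟨⟨σ, hσ⟩ * s' * ⟨σ, hσ⟩⁻¹, ?_, rfl⟩
  exact (MonoidHom.normal_ker _).conj_mem s' hs' ⟨σ, hσ⟩

variable {p : ℕ} {N : ℕ} [NeZero N] {S : Finset ℕ}
  {𝒪 : Type} [CommRing 𝒪] [IsDomain 𝒪] [IsDiscreteValuationRing 𝒪]
  [IsAdicComplete (IsLocalRing.maximalIdeal 𝒪) 𝒪]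
  {θ : CuspForm.heckeAlgebra N 2 (↑S : Set ℕ) →+* IsLocalRing.ResidueField 𝒪}
  {T : Type} [CommRing T] [IsLocalRing T] [IsNoetherianRing T]
  [IsAdicComplete (IsLocalRing.maximalIdeal T) T] [Algebra 𝒪 T] [IsLocalHom (algebraMap 𝒪 T)]
  [Module.Finite 𝒪 T] [Module.Free 𝒪 T]

/-- **(U2) + (U3)**. -/
theorem ordinary_of_u (hp : p.Prime)
    (hp𝒪 : (p : 𝒪) ∈ IsLocalRing.maximalIdeal 𝒪) (hpS : p ∈ S)
    (hNS : ∀ q : ℕ, q.Prime → q ∣ N → q ∈ S)
    (H : CuspForm.HeckeGaloisRepDatum N (↑S : Set ℕ) 𝒪 θ T)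
    (hres : (GaloisRepAdic.ofResidualGaloisRep H.ρ.residual).IsOrdinaryAt p)
    (hs0 : ∀ P : ValuationSubring Qb, P.LiesOverPrime p →
      ∃ s0 ∈ P.inertiaSubgroupIn ℚ, H.ρ.residual.ρ s0 ≠ 1)
    (hu : ∀ P : ValuationSubring Qb, P.LiesOverPrime p → ∀ n : ℕ, ∃ u : GQ →₀ ℤ,
      (∀ g ∈ u.support, g ∈ P.inertiaSubgroupIn ℚ) ∧ (u.sum fun _ c => c) = 1 ∧
      ∀ s ∈ P.inertiaSubgroupIn ℚ, ∀ w : GES.VN N (p ^ n),
        (u.sum fun g c => c • GES.actV N (p ^ n) g (GES.actV N (p ^ n) s w - w)) = 0) :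
    H.ρ.IsOrdinaryAt p := by
  classical
  intro P hP
  obtain ⟨Lb, ⟨bb0, hLb⟩, -, hLbI⟩ := hres P hP
  let bb : Module.Basis (Fin 2) (ResidueField T) (ResidueField T ⊗[T] H.ρ.V) := bb0
  obtain ⟨s0, hs0I, hs0ne⟩ := hs0 P hP
  obtain ⟨k, hk⟩ := S32.exists_kill hp hp𝒪 hpS hNS H
  let L : Submodule T H.ρ.V :=
    Submodule.span T {y | ∃ s ∈ P.inertiaSubgroupIn ℚ, ∃ v : H.ρ.V, y = H.ρ.ρ s v - v}
  have hgen : ∀ s ∈ P.inertiaSubgroupIn ℚ, ∀ v : H.ρ.V, H.ρ.ρ s v - v ∈ L :=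
    fun s hs v => Submodule.subset_span ⟨s, hs, v, rfl⟩
  have hbc : ∀ (σ : GQ) (v : H.ρ.V), H.ρ.residual.ρ σ ((1 : ResidueField T) ⊗ₜ[T] v) =
      (1 : ResidueField T) ⊗ₜ[T] (H.ρ.ρ σ v) := fun σ v => LinearMap.baseChange_tmul _ _ _
  refine ⟨L, ?_, ?_, hgen⟩
  · -- the basis
    have hL : ∀ y ∈ L, (1 : ResidueField T) ⊗ₜ[T] y ∈
        Submodule.span (ResidueField T) {(bb 0 : ResidueField T ⊗[T] H.ρ.V)} := by
      have h1 : L ≤ (Submodule.restrictScalars T (Submodule.span (ResidueField T)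
          {(bb 0 : ResidueField T ⊗[T] H.ρ.V)})).comap
            (TensorProduct.mk T (ResidueField T) H.ρ.V 1) := by
        refine Submodule.span_le.2 ?_
        rintro _ ⟨s, hs, v, rfl⟩
        show (1 : ResidueField T) ⊗ₜ[T] (H.ρ.ρ s v - v) ∈
          Submodule.span (ResidueField T) {(bb 0 : ResidueField T ⊗[T] H.ρ.V)}
        rw [TensorProduct.tmul_sub, ← hbc]
        have h2 := hLbI s hs ((1 : ResidueField T) ⊗ₜ[T] v)
        rw [hLb] at h2
        exact h2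
      exact fun y hy => h1 hy
    obtain ⟨v0, hv0⟩ : ∃ v0 : H.ρ.V, (1 : ResidueField T) ⊗ₜ[T] (H.ρ.ρ s0 v0 - v0) ≠ 0 := by
      by_contra hcon
      have hcon : ∀ v0 : H.ρ.V, (1 : ResidueField T) ⊗ₜ[T] (H.ρ.ρ s0 v0 - v0) = 0 :=
        fun v0 => by_contra fun h => hcon ⟨v0, h⟩
      apply hs0ne
      refine LinearMap.ext fun x => ?_
      obtain ⟨v, rfl⟩ := TensorProduct.mk_surjective T H.ρ.V (ResidueField T)
        IsLocalRing.residue_surjective x
      have h1 := hcon v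
      rw [TensorProduct.tmul_sub, sub_eq_zero, ← hbc] at h1
      exact h1
    refine ord_abs L bb hL _ (hgen s0 hs0I v0) hv0 ?_
    intro m
    obtain ⟨u, hu1, hu2, hu3⟩ := hu P hP (m + k)
    let U : Module.End T H.ρ.V := u.sum fun g c => c • H.ρ.ρ g
    have hUapp : ∀ v, U v = u.sum fun g c => c • H.ρ.ρ g v := by
      intro v
      show (u.sum fun g c => c • H.ρ.ρ g) v = _
      rw [Finsupp.sum, LinearMap.sum_apply, Finsupp.sum]
      rfl
    refine ⟨U, ?_, ?_⟩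
    · have h1 : L ≤ ((maximalIdeal T ^ m) • (⊤ : Submodule T H.ρ.V)).comap U := by
        refine Submodule.span_le.2 ?_
        rintro _ ⟨s, hs, v, rfl⟩
        show U (H.ρ.ρ s v - v) ∈ (maximalIdeal T ^ m) • (⊤ : Submodule T H.ρ.V)
        rw [hUapp, ← sum_shift (fun g x => H.ρ.ρ g x) (fun g x y => map_sub _ _ _)
          (fun g s x => by rw [map_mul]; rfl) u s v]
        refine hk m _ (fun w => ?_) v
        rw [sum_shift (fun g x => GES.actV N (p ^ (m + k)) g x) (fun g x y => map_sub _ _ _)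
          (fun g s x => by rw [map_mul]; rfl) u s w]
        exact hu3 s hs w
      exact fun y hy => h1 hy
    · intro v
      have h1 : (u.sum fun _ c => c • v) = v := by
        have h2 : (u.sum fun _ c => c • v) = (u.sum fun _ c => c) • v := by
          rw [Finsupp.sum, Finsupp.sum, Finset.sum_smul]
        rw [h2, hu2, one_smul]
      have h3 : U v - v = u.sum fun g c => c • (H.ρ.ρ g v - v) := by
        have h4 : U v - v = (u.sum fun g c => c • H.ρ.ρ g v) - u.sum fun _ c => c • v := by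
          rw [hUapp, h1]
        rw [h4, ← Finsupp.sum_sub]
        exact Finsupp.sum_congr fun g _ => (smul_sub _ _ _).symm
      rw [h3]
      exact Submodule.sum_mem _ fun g hg => L.smul_of_tower_mem _ (hgen g (hu1 g hg) v)
  · -- stability under the decomposition group
    intro σ hσ
    have h1 : L ≤ L.comap (H.ρ.ρ σ) := by
      refine Submodule.span_le.2 ?_
      rintro _ ⟨s, hs, v, rfl⟩
      show H.ρ.ρ σ (H.ρ.ρ s v - v) ∈ L
      have h2 : H.ρ.ρ σ (H.ρ.ρ s v - v) = H.ρ.ρ (σ * s * σ⁻¹) (H.ρ.ρ σ v) - H.ρ.ρ σ v := by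
        rw [map_sub]
        congr 1
        rw [← Module.End.mul_apply, ← Module.End.mul_apply, ← map_mul, ← map_mul,
          inv_mul_cancel_right]
      rw [h2]
      exact hgen _ (conj_mem_inertia P hσ hs) _
    exact fun v hv => h1 hv

end Fermat.Agent.S33
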