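import Fermat.Agent.S33.OrdAbsD
import Fermat.Agent.S33.TopU
import Fermat.Agent.S33.OfNT

set_option autoImplicit false

/-!
# S33 / TopUD : `ordinary_of_u` with a bounded denominator `d`, and the bridge from `UT`
-/

namespace Fermat.Agent.S33

open CuspForm Fermat.Agent.S31 Fermat.Agent.S19 IsLocalRing TensorProduct

/-- from `UT` to the `element form' (augmentation one, kills `K`). -/
theorem u_of_UT {G X : Type} [Group G] [AddCommGroup X] {I : Subgroup G}
    {act : G →* AddMonoid.End X} {K : AddSubgroup X} (h : UT I act K) :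
    ∃ u : G →₀ ℤ, (∀ g ∈ u.support, g ∈ I) ∧ (u.sum fun _ c => c) = 1 ∧
      ∀ x ∈ K, (u.sum fun g c => c • act g x) = 0 := by
  classical
  obtain ⟨u, hu, h1⟩ := h
  refine ⟨Finsupp.single 1 1 + -u, fun g hg => ?_, ?_, fun x hx => ?_⟩
  · rcases Finset.mem_union.1 (Finsupp.support_add hg) with h | h
    · exact support_single_mem I I.one_mem 1 g h
    · rw [Finsupp.support_neg] at h
      exact hu.1 g h
  · have : zeps (Finsupp.single 1 1 + -u : G →₀ ℤ) = 1 := by
      have h2 : zeps u = 0 := hu.2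
      rw [map_add, map_neg, zeps_single, h2, neg_zero, add_zero]
    exact this
  · have : zact act x (Finsupp.single 1 1 + -u : G →₀ ℤ) = 0 := by
      have h2 : zact act x u = x := h1 x hx
      rw [map_add, map_neg, zact_single, h2, one_smul, map_one]
      exact add_neg_cancel x
    exact this

theorem sum_zsmul_index {G M : Type*} [AddCommGroup M] (d : ℤ) (a : G →₀ ℤ) (f : G → M) :
    ((d • a).sum fun g c => c • f g) = d • a.sum fun g c => c • f g := by
  rw [Finsupp.sum_smul_index' (fun g => by rw [zero_smul]), Finsupp.smul_sum]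
  exact Finsupp.sum_congr fun g _ => by rw [smul_eq_mul, mul_smul]

variable {p : ℕ} {N : ℕ} [NeZero N] {S : Finset ℕ}
  {𝒪 : Type} [CommRing 𝒪] [IsDomain 𝒪] [IsDiscreteValuationRing 𝒪]
  [IsAdicComplete (IsLocalRing.maximalIdeal 𝒪) 𝒪]
  {θ : CuspForm.heckeAlgebra N 2 (↑S : Set ℕ) →+* IsLocalRing.ResidueField 𝒪}
  {T : Type} [CommRing T] [IsLocalRing T] [IsNoetherianRing T]
  [IsAdicComplete (IsLocalRing.maximalIdeal T) T] [Algebra 𝒪 T] [IsLocalHom (algebraMap 𝒪 T)]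
  [Module.Finite 𝒪 T] [Module.Free 𝒪 T]

theorem intCast_mul_eq_zero [CharZero 𝒪] (d : ℤ) (hd : d ≠ 0) (t : T) (h : (d : T) * t = 0) :
    t = 0 := by
  have h1 : (d : 𝒪) • t = 0 := by
    rw [Algebra.smul_def, map_intCast]
    exact h
  have h2 : (d : 𝒪) ≠ 0 := Int.cast_ne_zero.2 hd
  exact (smul_eq_zero.1 h1).resolve_left h2

/-- **(U2) + (U3)** with a denominator. -/
theorem ordinary_of_u_d [CharZero 𝒪] (hp : p.Prime)
    (hp𝒪 : (p : 𝒪) ∈ IsLocalRing.maximalIdeal 𝒪) (hpS : p ∈ S)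
    (hNS : ∀ q : ℕ, q.Prime → q ∣ N → q ∈ S)
    (H : CuspForm.HeckeGaloisRepDatum N (↑S : Set ℕ) 𝒪 θ T)
    (hres : (GaloisRepAdic.ofResidualGaloisRep H.ρ.residual).IsOrdinaryAt p)
    (hs0 : ∀ P : ValuationSubring Qb, P.LiesOverPrime p →
      ∃ s0 ∈ P.inertiaSubgroupIn ℚ, H.ρ.residual.ρ s0 ≠ 1)
    (d : ℤ) (hd : d ≠ 0)
    (hu : ∀ P : ValuationSubring Qb, P.LiesOverPrime p → ∀ n : ℕ, ∃ u : GQ →₀ ℤ,
      (∀ g ∈ u.support, g ∈ P.inertiaSubgroupIn ℚ) ∧ (u.sum fun _ c => c) = 1 ∧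
      ∀ s ∈ P.inertiaSubgroupIn ℚ, ∀ w : GES.VN N (p ^ n),
        d • (u.sum fun g c => c • GES.actV N (p ^ n) g (GES.actV N (p ^ n) s w - w)) = 0) :
    H.ρ.IsOrdinaryAt p := by
  classical
  intro P hP
  obtain ⟨Lb, ⟨bb0, hLb⟩, -, hLbI⟩ := hres P hP
  let bb : Module.Basis (Fin 2) (ResidueField T) (ResidueField T ⊗[T] H.ρ.V) := bb0
  obtain ⟨s0, hs0I, hs0ne⟩ := hs0 P hP
  obtain ⟨k, hk⟩ := S32.exists_kill hp hp𝒪 hpS hNS H
  let L : Submodule T H.ρ.V :=
    Submodule.span T {y | ∃ s ∈ P.inertiaSubgroupIn ℚ, ∃ v : H.ρ.V, y = H.ρ.ρ s v - v}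
  have hgen : ∀ s ∈ P.inertiaSubgroupIn ℚ, ∀ v : H.ρ.V, H.ρ.ρ s v - v ∈ L :=
    fun s hs v => Submodule.subset_span ⟨s, hs, v, rfl⟩
  have hbc : ∀ (σ : GQ) (v : H.ρ.V), H.ρ.residual.ρ σ ((1 : ResidueField T) ⊗ₜ[T] v) =
      (1 : ResidueField T) ⊗ₜ[T] (H.ρ.ρ σ v) := fun σ v => LinearMap.baseChange_tmul _ _ _
  refine ⟨L, ?_, ?_, hgen⟩
  · -- the basis
    have hL : ∀ y ∈ L, (1 : ResidueField T) ⊗ₜ[T] y ∈
        Submodule.span (ResidueField T) {(bb 0 : ResidueField T ⊗[T] H.ρ.V)} := by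
      have h1 : L ≤ (Submodule.restrictScalars T (Submodule.span (ResidueField T)
          {(bb 0 : ResidueField T ⊗[T] H.ρ.V)})).comap
            (TensorProduct.mk T (ResidueField T) H.ρ.V 1) := by
        refine Submodule.span_le.2 ?_
        rintro _ ⟨s, hs, v, rfl⟩
        show (1 : ResidueField T) ⊗ₜ[T] (H.ρ.ρ s v - v) ∈
          Submodule.span (ResidueField T) {(bb 0 : ResidueField T ⊗[T] H.ρ.V)}
        rw [TensorProduct.tmul_sub, ← hbc]
        have h2 := hLbI s hs ((1 : ResidueField T) ⊗ₜ[T] v)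
        rw [hLb] at h2
        exact h2
      exact fun y hy => h1 hy
    obtain ⟨v0, hv0⟩ : ∃ v0 : H.ρ.V, (1 : ResidueField T) ⊗ₜ[T] (H.ρ.ρ s0 v0 - v0) ≠ 0 := by
      by_contra hcon
      have hcon : ∀ v0 : H.ρ.V, (1 : ResidueField T) ⊗ₜ[T] (H.ρ.ρ s0 v0 - v0) = 0 :=
        fun v0 => by_contra fun h => hcon ⟨v0, h⟩
      apply hs0ne
      refine LinearMap.ext fun x => ?_
      obtain ⟨v, rfl⟩ := TensorProduct.mk_surjective T H.ρ.V (ResidueField T)
        IsLocalRing.residue_surjective x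
      have h1 := hcon v
      rw [TensorProduct.tmul_sub, sub_eq_zero, ← hbc] at h1
      exact h1
    refine ord_abs_d L bb hL _ (hgen s0 hs0I v0) hv0 (d : T)
      (fun t ht => intCast_mul_eq_zero (𝒪 := 𝒪) d hd t ht) ?_
    intro m
    obtain ⟨u, hu1, hu2, hu3⟩ := hu P hP (m + k)
    let U : Module.End T H.ρ.V := u.sum fun g c => c • H.ρ.ρ g
    have hUapp : ∀ v, U v = u.sum fun g c => c • H.ρ.ρ g v := by
      intro v
      show (u.sum fun g c => c • H.ρ.ρ g) v = _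
      rw [Finsupp.sum, LinearMap.sum_apply, Finsupp.sum]
      rfl
    refine ⟨U, ?_, ?_⟩
    · have h1 : L ≤ ((maximalIdeal T ^ m) • (⊤ : Submodule T H.ρ.V)).comap ((d : T) • U) := by
        refine Submodule.span_le.2 ?_
        rintro _ ⟨s, hs, v, rfl⟩
        show (d : T) • U (H.ρ.ρ s v - v) ∈ (maximalIdeal T ^ m) • (⊤ : Submodule T H.ρ.V)
        rw [Int.cast_smul_eq_zsmul, hUapp, ← sum_shift (fun g x => H.ρ.ρ g x)
          (fun g x y => map_sub _ _ _) (fun g s x => by rw [map_mul]; rfl) u s v,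
          ← sum_zsmul_index]
        refine hk m _ (fun w => ?_) v
        rw [sum_zsmul_index, sum_shift (fun g x => GES.actV N (p ^ (m + k)) g x)
          (fun g x y => map_sub _ _ _) (fun g s x => by rw [map_mul]; rfl) u s w]
        exact hu3 s hs w
      exact fun y hy => h1 hy
    · intro v
      have h1 : (u.sum fun _ c => c • v) = v := by
        have h2 : (u.sum fun _ c => c • v) = (u.sum fun _ c => c) • v := by
          rw [Finsupp.sum, Finsupp.sum, Finset.sum_smul]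
        rw [h2, hu2, one_smul]
      have h3 : U v - v = u.sum fun g c => c • (H.ρ.ρ g v - v) := by
        have h4 : U v - v = (u.sum fun g c => c • H.ρ.ρ g v) - u.sum fun _ c => c • v := by
          rw [hUapp, h1]
        rw [h4, ← Finsupp.sum_sub]
        exact Finsupp.sum_congr fun g _ => (smul_sub _ _ _).symm
      rw [h3]
      exact Submodule.sum_mem _ fun g hg => L.smul_of_tower_mem _ (hgen g (hu1 g hg) v)
  · -- stability under the decomposition group
    intro σ hσ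
    have h1 : L ≤ L.comap (H.ρ.ρ σ) := by
      refine Submodule.span_le.2 ?_
      rintro _ ⟨s, hs, v, rfl⟩
      show H.ρ.ρ σ (H.ρ.ρ s v - v) ∈ L
      have h2 : H.ρ.ρ σ (H.ρ.ρ s v - v) = H.ρ.ρ (σ * s * σ⁻¹) (H.ρ.ρ σ v) - H.ρ.ρ σ v := by
        rw [map_sub]
        congr 1
        rw [← Module.End.mul_apply, ← Module.End.mul_apply, ← map_mul, ← map_mul,
          inv_mul_cancel_right]
      rw [h2]
      exact hgen _ (conj_mem_inertia P hσ hs) _
    exact fun v hv => h1 hv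

end Fermat.Agent.S33
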